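import Fermat.Agent.ClassField.Devissage
import Fermat.Agent.ClassField.Idele.CosetProd
import Fermat.Agent.ClassField.Idele.SecondInequality
import Fermat.Agent.ClassField.Idele.HerbrandClasses
import Fermat.Agent.ClassField.S14.Character

/-!
# Idele classes of a level as modules of `Γ ⧸ U`

`LevelMod U = (idele classes)^U` with the action of `Γ ⧸ U`; for the fixing subgroup of a finite
normal `L ∋ ζ_p` and a `p`-subgroup `P` of the quotient, `H¹(P) = 0` and `#H²(P) ≤ #P`.
-/

set_option autoImplicit false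

noncomputable section

open IntermediateField

namespace Fermat.Agent.ClassField.Idele

local notation "Qb" => AlgebraicClosure ℚ
local notation "Γ" => (AlgebraicClosure ℚ ≃ₐ[ℚ] AlgebraicClosure ℚ)

/-- The idele classes, written additively. -/
abbrev Cls : Type := Additive (IdeleClass Set.univ)

instance clsAction : DistribMulAction Γ Cls where
  smul σ c := Additive.ofMul (σ • c.toMul)
  one_smul c := congrArg Additive.ofMul (one_smul Γ c.toMul)
  mul_smul σ τ c := congrArg Additive.ofMul (mul_smul σ τ c.toMul)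
  smul_zero σ := congrArg Additive.ofMul (smul_one σ)
  smul_add σ c d := congrArg Additive.ofMul (smul_mul' σ c.toMul d.toMul)

lemma toMul_smul_cls (σ : Γ) (c : Cls) : (σ • c).toMul = σ • c.toMul := rfl

/-- The classes fixed by a subgroup. -/
abbrev LevelMod (U : Subgroup Γ) : AddSubgroup Cls := Devissage.fixedPts Cls U

/-- Classes of a number field are the invariant classes. -/
lemma mem_classesOf_univ_iff {L : IntermediateField ℚ Qb} [FiniteDimensional ℚ L]
    {c : IdeleClass Set.univ} :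
    c ∈ classesOf Set.univ L ↔ ∀ σ ∈ L.fixingSubgroup, σ • c = c := by
  constructor
  · rintro ⟨f, hf, rfl⟩ σ hσ
    rw [smul_classMap, hf σ hσ]
  · intro h
    obtain ⟨f, rfl⟩ := QuotientGroup.mk'_surjective _ c
    obtain ⟨y, hy⟩ := exists_principal_mul_mem_idelesOf L f fun σ hσ => h σ hσ
    exact ⟨_, hy, by rw [map_mul, classMap_principal, one_mul]⟩

lemma mem_levelMod_iff {L : IntermediateField ℚ Qb} [FiniteDimensional ℚ L] {c : Cls} :
    c ∈ LevelMod L.fixingSubgroup ↔ c.toMul ∈ classesOf Set.univ L :=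
  mem_classesOf_univ_iff.symm

/-- A subgroup containing the fixing subgroup of a finite extension is the fixing subgroup of
its fixed field. -/
lemma fixingSubgroup_fixedField_of_le {L : IntermediateField ℚ Qb} [FiniteDimensional ℚ L]
    {V : Subgroup Γ} (h : L.fixingSubgroup ≤ V) :
    (IntermediateField.fixedField V).fixingSubgroup = V :=
  InfiniteGalois.fixingSubgroup_fixedField
    ⟨V, Subgroup.isClosed_of_isOpen _
      (Subgroup.isOpen_mono h (IntermediateField.fixingSubgroup_isOpen L))⟩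

lemma fixedField_le_of_le {L : IntermediateField ℚ Qb} {V : Subgroup Γ}
    (h : L.fixingSubgroup ≤ V) : IntermediateField.fixedField V ≤ L := fun _ hx =>
  mem_of_forall_fixingSubgroup L fun σ hσ => hx ⟨σ, h hσ⟩

lemma finiteDimensional_fixedField_of_le {L : IntermediateField ℚ Qb} [FiniteDimensional ℚ L]
    {V : Subgroup Γ} (h : L.fixingSubgroup ≤ V) :
    FiniteDimensional ℚ (IntermediateField.fixedField V) :=
  Module.Finite.of_injective (IntermediateField.inclusion (fixedField_le_of_le h)).toLinearMap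
    (IntermediateField.inclusion (fixedField_le_of_le h)).toRingHom.injective

instance normal_fixingSubgroup (L : IntermediateField ℚ Qb) [Normal ℚ L] :
    L.fixingSubgroup.Normal :=
  ⟨fun τ hτ σ => (IntermediateField.mem_fixingSubgroup_iff _ _).mpr fun x hx => by
    have hx' : σ.symm x ∈ L :=
      (IntermediateField.normal_iff_forall_map_le'.mp ‹Normal ℚ L› σ.symm) ⟨x, hx, rfl⟩
    show σ (τ (σ.symm x)) = x
    rw [(IntermediateField.mem_fixingSubgroup_iff _ _).mp hτ _ hx', AlgEquiv.apply_symm_apply]⟩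

instance finite_levelGroup (L : IntermediateField ℚ Qb) [FiniteDimensional ℚ L] :
    Finite (Γ ⧸ L.fixingSubgroup) :=
  Subgroup.finite_quotient_of_finiteIndex

/-- Elements of `p`-power order modulo a level containing `ζ_p` fix `ζ_p`. -/
lemma apply_root_of_pow_mem {p : ℕ} [Fact p.Prime] {L : IntermediateField ℚ Qb} {ζ : Qb}
    (hζ : IsPrimitiveRoot ζ p) (hζL : ζ ∈ L) {g : Γ} {a : ℕ} (hg : g ^ p ^ a ∈ L.fixingSubgroup) :
    g ζ = ζ := by
  have hp := (Fact.out : p.Prime)
  obtain ⟨i, -, hcop, hi⟩ := hζ.isPrimitiveRoot_iff.mp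
    (hζ.map_of_injective (f := g) g.injective)
  have hpow : ∀ m : ℕ, (g ^ m) ζ = ζ ^ i ^ m := fun m => by
    induction m with
    | zero => simp
    | succ m ih =>
      rw [pow_succ', AlgEquiv.mul_apply, ih, map_pow, ← hi, ← pow_mul, ← pow_succ']
  have h1 : ζ ^ i ^ p ^ a = ζ ^ 1 := by
    rw [pow_one, ← hpow]
    exact (IntermediateField.mem_fixingSubgroup_iff _ _).mp hg ζ hζL
  have hfin : IsOfFinOrder ζ := isOfFinOrder_iff_pow_eq_one.2 ⟨p, hp.pos, hζ.pow_eq_one⟩
  have h2 : ((i : ZMod p)) ^ p ^ a = 1 := by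
    rw [← Nat.cast_pow, ← Nat.cast_one, ZMod.natCast_eq_natCast_iff]
    have h := hfin.pow_eq_pow_iff_modEq.mp h1
    rwa [← hζ.eq_orderOf] at h
  rw [ZMod.pow_card_pow] at h2
  rw [← hi]
  conv_rhs => rw [← pow_one ζ]
  refine hfin.pow_eq_pow_iff_modEq.mpr ?_
  rw [← hζ.eq_orderOf, ← ZMod.natCast_eq_natCast_iff, Nat.cast_one]
  exact h2

variable {p : ℕ} [Fact p.Prime] {L : IntermediateField ℚ Qb} [FiniteDimensional ℚ L] [Normal ℚ L]

/-- The relative norm in a step of prime degree as a product over powers. -/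
lemma relNorm_eq_prod_pow {M : Type*} [CommGroup M] [MulDistribMulAction Γ M]
    {k' L' : IntermediateField ℚ Qb} (h : IsPrimeCyclic p k' L') {σ : Γ}
    (hσ : σ ∈ k'.fixingSubgroup) (hσL : σ ∉ L'.fixingSubgroup) {m : M}
    (hm : m ∈ invariants M L'.fixingSubgroup) :
    relNorm k' L' m = ∏ i ∈ Finset.range p, σ ^ i • m := by
  set N := L'.fixingSubgroup.subgroupOf k'.fixingSubgroup with hN
  have := h.normal
  have hp := (Fact.out : p.Prime)
  have hcard : Nat.card (k'.fixingSubgroup ⧸ N) = p := h.index_eq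
  have : Finite (k'.fixingSubgroup ⧸ N) := Nat.finite_of_card_ne_zero (hcard ▸ hp.ne_zero)
  set s : k'.fixingSubgroup := ⟨σ, hσ⟩
  have hs : (s : k'.fixingSubgroup ⧸ N) ≠ 1 := fun e =>
    hσL (Subgroup.mem_subgroupOf.1 ((QuotientGroup.eq_one_iff s).1 e))
  have hord : orderOf (s : k'.fixingSubgroup ⧸ N) = p :=
    orderOf_eq_prime (by rw [← hcard, pow_card_eq_one']) hs
  have hbij : Function.Bijective fun i : Fin p => (QuotientGroup.mk (s ^ (i : ℕ)) :
      k'.fixingSubgroup ⧸ N) := by
    refine (Nat.bijective_iff_injective_and_card _).2 ⟨fun i j e => Fin.ext ?_, by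
      rw [Nat.card_fin, hcard]⟩
    simp only [QuotientGroup.mk_pow] at e
    exact pow_injOn_Iio_orderOf (x := (s : k'.fixingSubgroup ⧸ N)) (Set.mem_Iio.2 (hord.symm ▸ i.2))
      (Set.mem_Iio.2 (hord.symm ▸ j.2)) e
  rw [relNorm, cosetProd_eq_finprod hm (Equiv.ofBijective _ hbij) (fun i => s ^ (i : ℕ))
    fun _ => rfl, finprod_eq_prod_of_fintype, Finset.prod_range]
  exact Finset.prod_congr rfl fun i _ => by rw [SubmonoidClass.coe_pow]

/-- The steps of index `p` inside a `p`-subgroup: Herbrand quotient and second inequality. -/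
theorem stepHyp (hp : p ≠ 2) {ζ : Qb} (hζ : IsPrimitiveRoot ζ p) (hζL : ζ ∈ L)
    (P : Subgroup (Γ ⧸ L.fixingSubgroup)) (hP : IsPGroup p P) :
    Devissage.StepHyp (LevelMod L.fixingSubgroup) P p := by
  intro V U hUV hn hidx σ hσV hσU
  set Λ := L.fixingSubgroup with hΛ
  let π : Γ →* Γ ⧸ Λ := QuotientGroup.mk' Λ
  have hπ : Function.Surjective π := QuotientGroup.mk'_surjective Λ
  let lift : Subgroup P → Subgroup Γ := fun W => (W.map P.subtype).comap π
  have hlift : ∀ W, Λ ≤ lift W := fun W g hg => by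
    show π g ∈ W.map P.subtype
    rw [show π g = 1 from (QuotientGroup.eq_one_iff g).2 hg]
    exact one_mem _
  have hmem : ∀ W (g : Γ), g ∈ lift W ↔ ∃ w ∈ W, (w : Γ ⧸ Λ) = (g : Γ ⧸ Λ) := fun W g =>
    Subgroup.mem_map
  have hliftP : ∀ W (g : Γ), g ∈ lift W → ∃ a, g ^ p ^ a ∈ Λ := fun W g hg => by
    obtain ⟨w, -, hw⟩ := (hmem W g).1 hg
    obtain ⟨a, ha⟩ := hP w
    refine ⟨a, (QuotientGroup.eq_one_iff _).1 ?_⟩
    rw [QuotientGroup.mk_pow, ← hw]
    exact congrArg Subtype.val ha
  set k' := IntermediateField.fixedField (lift V) with hk'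
  set L' := IntermediateField.fixedField (lift U) with hL'
  have hkfix : k'.fixingSubgroup = lift V := fixingSubgroup_fixedField_of_le (hlift V)
  have hLfix : L'.fixingSubgroup = lift U := fixingSubgroup_fixedField_of_le (hlift U)
  have := finiteDimensional_fixedField_of_le (hlift V)
  have := finiteDimensional_fixedField_of_le (hlift U)
  have hζk : ζ ∈ k' := fun g => by
    obtain ⟨a, ha⟩ := hliftP V g g.2
    exact apply_root_of_pow_mem hζ hζL ha
  have hle : lift U ≤ lift V := Subgroup.comap_mono (Subgroup.map_mono hUV)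
  have hnorm' : ((lift U).subgroupOf (lift V)).Normal := by
    refine ⟨fun a ha b => ?_⟩
    rw [Subgroup.mem_subgroupOf] at ha ⊢
    obtain ⟨u, hu, hu'⟩ := (hmem U _).1 ha
    obtain ⟨v, hv, hv'⟩ := (hmem V _).1 b.2
    refine (hmem U _).2 ⟨v * u * v⁻¹, ?_, ?_⟩
    · exact Subgroup.mem_subgroupOf.1 (hn.conj_mem ⟨u, hUV hu⟩ (Subgroup.mem_subgroupOf.2 hu) ⟨v, hv⟩)
    · simp only [Subgroup.coe_mul, InvMemClass.coe_inv, QuotientGroup.mk_mul, QuotientGroup.mk_inv,
        hu', hv']
  have hindex : ((lift U).subgroupOf (lift V)).index = p := by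
    show (lift U).relIndex (lift V) = p
    rw [← Subgroup.relIndex_map_map_of_injective U V P.subtype_injective] at hidx
    rw [Subgroup.relIndex_comap, Subgroup.map_comap_eq_self_of_surjective hπ, hidx]
  have hkL : IsPrimeCyclic p k' L' :=
    { finite := inferInstance
      le := fun x hx g => hx ⟨g, hle g.2⟩
      index_eq := by rw [hkfix, hLfix]; exact hindex
      normal := by rw [hkfix, hLfix]; exact hnorm' }
  obtain ⟨τ, hτ⟩ := hπ (σ : Γ ⧸ Λ)
  have hτk : τ ∈ k'.fixingSubgroup := hkfix ▸ (hmem V τ).2 ⟨σ, hσV, hτ.symm⟩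
  have hτL : τ ∉ L'.fixingSubgroup := fun h => hσU (by
    obtain ⟨u, hu, hu'⟩ := (hmem U τ).1 (hLfix ▸ h)
    rwa [Subtype.ext (hu'.trans hτ)] at hu)
  -- invariants of subgroups of `P` are classes of fixed fields
  have hfix : ∀ (W : Subgroup P) (F : IntermediateField ℚ Qb) (_ : FiniteDimensional ℚ F),
      F.fixingSubgroup = lift W → ∀ x : LevelMod Λ,
      x ∈ Devissage.fixedPts (LevelMod Λ) W ↔ (x : Cls).toMul ∈ classesOf Set.univ F := by
    intro W F hFfin hF x
    rw [mem_classesOf_univ_iff, hF]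
    constructor
    · intro hx g hg
      obtain ⟨w, hw, hw'⟩ := (hmem W g).1 hg
      have h := congrArg (fun y : LevelMod Λ => (y : Cls).toMul) (hx w hw)
      refine Eq.trans ?_ h
      show g • (x : Cls).toMul = (((w : Γ ⧸ Λ) • x : LevelMod Λ) : Cls).toMul
      rw [hw', Devissage.coe_mk_smul, toMul_smul_cls]
    · intro hx w hw
      obtain ⟨g, hg⟩ := hπ (w : Γ ⧸ Λ)
      refine Subtype.ext ?_
      show (((w : Γ ⧸ Λ) • x : LevelMod Λ) : Cls) = _
      rw [← hg]
      exact (Devissage.coe_mk_smul Λ g x).trans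
        (congrArg Additive.ofMul (hx g ((hmem W g).2 ⟨w, hw, hg.symm⟩)))
  have hlevel : ∀ c : IdeleClass Set.univ, c ∈ classesOf Set.univ L' →
      Additive.ofMul c ∈ LevelMod Λ := fun c hc g hg =>
    congrArg Additive.ofMul (mem_classesOf_univ_iff.1 hc g (hLfix ▸ hlift U hg))
  have hpow : ∀ (i : ℕ) (x : LevelMod Λ),
      ((σ ^ i • x : LevelMod Λ) : Cls).toMul = τ ^ i • (x : Cls).toMul := fun i x => by
    show (((σ ^ i : P) : Γ ⧸ Λ) • x : LevelMod Λ).1.toMul = _
    rw [SubmonoidClass.coe_pow, ← hτ, ← map_pow]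
    exact congrArg Additive.toMul (Devissage.coe_mk_smul Λ (τ ^ i) x)
  have hsum : ∀ x : LevelMod Λ, (x : Cls).toMul ∈ classesOf Set.univ L' →
      ((Devissage.powSum σ p x : LevelMod Λ) : Cls).toMul = relNorm k' L' (x : Cls).toMul := by
    intro x hx
    rw [relNorm_eq_prod_pow hkL hτk hτL fun g hg => mem_classesOf_univ_iff.1 hx g hg,
      Devissage.powSum_apply, AddSubgroup.val_finsetSum, toMul_sum]
    exact Finset.prod_congr rfl fun i _ => hpow i x
  obtain ⟨hne, hlep⟩ := relIndex_normClasses_le hkL hζ hζk hp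
  have hher := relIndex_normClasses (S := Set.univ) hkL hζ hζk hp
    (fun ℓ h => absurd (Set.mem_univ ℓ) h) τ hτk hτL
  have hone : (Subgroup.closure ((fun c : IdeleClass Set.univ => τ • c * c⁻¹) ''
      (classesOf Set.univ L' : Set (IdeleClass Set.univ)))).relIndex
        (Subgroup.closure (normOneClasses Set.univ k' L')) = 1 := by
    rw [hher] at hne hlep
    rcases Nat.lt_or_ge 1 ((Subgroup.closure ((fun c : IdeleClass Set.univ => τ • c * c⁻¹) ''
        (classesOf Set.univ L' : Set (IdeleClass Set.univ)))).relIndex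
          (Subgroup.closure (normOneClasses Set.univ k' L'))) with h | h
    · have := Nat.mul_lt_mul_of_pos_left h (Fact.out : p.Prime).pos
      omega
    · have := (Nat.mul_ne_zero_iff.1 hne).2
      omega
  refine ⟨fun x hx hx0 => ?_, ?_⟩
  · have hxL := (hfix U L' inferInstance hLfix x).1 hx
    have hx1 : (x : Cls).toMul ∈ normOneClasses Set.univ k' L' := by
      refine ⟨hxL, ?_⟩
      rw [← hsum x hxL, hx0]
      rfl
    have hd : ∀ c ∈ Subgroup.closure ((fun c : IdeleClass Set.univ => τ • c * c⁻¹) ''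
        (classesOf Set.univ L' : Set (IdeleClass Set.univ))),
        ∃ y ∈ classesOf Set.univ L', τ • y * y⁻¹ = c := by
      intro c hc
      induction hc using Subgroup.closure_induction with
      | mem c hc => exact hc
      | one => exact ⟨1, one_mem _, by rw [smul_one, inv_one, mul_one]⟩
      | mul a b _ _ ha hb =>
        obtain ⟨y, hy, rfl⟩ := ha
        obtain ⟨z, hz, rfl⟩ := hb
        refine ⟨y * z, mul_mem hy hz, ?_⟩
        rw [smul_mul', mul_inv_rev]; ac_rfl
      | inv a _ ha =>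
        obtain ⟨y, hy, rfl⟩ := ha
        refine ⟨y⁻¹, inv_mem hy, ?_⟩
        rw [smul_inv', inv_inv, mul_inv_rev, inv_inv]; ac_rfl
    obtain ⟨y, hy, hyx⟩ := hd _ (Subgroup.relIndex_eq_one.1 hone (Subgroup.subset_closure hx1))
    refine ⟨⟨Additive.ofMul y, hlevel y hy⟩, (hfix U L' inferInstance hLfix _).2 hy,
      Subtype.ext (Additive.toMul.injective ?_)⟩
    rw [← hyx, AddSubgroup.coe_sub, toMul_sub, div_eq_mul_inv]
    have h := hpow 1 ⟨Additive.ofMul y, hlevel y hy⟩
    rw [pow_one, pow_one] at h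
    exact congrArg (· * y⁻¹) h
  · set N₁ := (Devissage.fixedPts (LevelMod Λ) U).map (Devissage.powSum σ p) with hN₁
    have hN : N₁.map (LevelMod Λ).subtype = Subgroup.toAddSubgroup (normClasses Set.univ k' L') := by
      have himage : (normClasses Set.univ k' L' : Set (IdeleClass Set.univ)) =
          relNorm k' L' '' (classesOf Set.univ L' : Set (IdeleClass Set.univ)) :=
        Set.Subset.antisymm ((Subgroup.closure_le
          ((classesOf Set.univ L').map (cosetProdHom k'.fixingSubgroup L'.fixingSubgroup))).2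
            fun c hc => hc) Subgroup.subset_closure
      ext c
      constructor
      · rintro ⟨_, ⟨x, hx, rfl⟩, rfl⟩
        have hxL := (hfix U L' inferInstance hLfix x).1 hx
        show ((Devissage.powSum σ p x : LevelMod Λ) : Cls).toMul ∈ normClasses Set.univ k' L'
        rw [hsum x hxL]
        exact Subgroup.subset_closure ⟨_, hxL, rfl⟩
      · intro hc
        have hc' : c.toMul ∈ (normClasses Set.univ k' L' : Set (IdeleClass Set.univ)) := hc
        rw [himage] at hc'
        obtain ⟨d, hd, hdc⟩ := hc'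
        refine ⟨_, ⟨⟨Additive.ofMul d, hlevel d hd⟩, (hfix U L' inferInstance hLfix _).2 hd, rfl⟩,
          Additive.toMul.injective ?_⟩
        rw [← hdc]
        exact hsum ⟨Additive.ofMul d, hlevel d hd⟩ hd
    have hF : (Devissage.fixedPts (LevelMod Λ) V).map (LevelMod Λ).subtype =
        Subgroup.toAddSubgroup (classesOf Set.univ k') := by
      ext c
      constructor
      · rintro ⟨x, hx, rfl⟩
        exact (hfix V k' inferInstance hkfix x).1 hx
      · intro hc
        have hc' : c ∈ LevelMod Λ := fun g hg =>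
          congrArg Additive.ofMul (mem_classesOf_univ_iff.1 hc g (hkfix ▸ hlift V hg))
        exact ⟨⟨c, hc'⟩, (hfix V k' inferInstance hkfix _).2 hc, rfl⟩
    have hrel : N₁.relIndex (Devissage.fixedPts (LevelMod Λ) V) =
        (normClasses Set.univ k' L').relIndex (classesOf Set.univ k') := by
      rw [← AddSubgroup.relIndex_map_map_of_injective _ _ (LevelMod Λ).subtype_injective, hN, hF]
      exact Subgroup.relIndex_toAddSubgroup
    rw [hrel]
    exact ⟨hne, hlep⟩

/-- **`H¹ = 0` and `#H² ≤ #P`** for `p`-subgroups. -/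
theorem h1_h2_levelMod (hp : p ≠ 2) {ζ : Qb} (hζ : IsPrimitiveRoot ζ p) (hζL : ζ ∈ L)
    (P : Subgroup (Γ ⧸ L.fixingSubgroup)) (hP : IsPGroup p P) :
    Devissage.H1Vanishes P (LevelMod L.fixingSubgroup) ∧
      Finite (CochainH2.H2 P (LevelMod L.fixingSubgroup)) ∧
      Nat.card (CochainH2.H2 P (LevelMod L.fixingSubgroup)) ≤ Nat.card P := by
  obtain ⟨h1, h2, h3⟩ := Devissage.h1_h2_le hP (stepHyp hp hζ hζL P hP) ⊤
  have he : ∀ (w : (⊤ : Subgroup P)) (a : LevelMod L.fixingSubgroup),
      Subgroup.topEquiv w • a = w • a := fun _ _ => rfl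
  obtain ⟨h2', h3'⟩ := Devissage.card_h2_of_equiv Subgroup.topEquiv he h2
  refine ⟨Devissage.h1Vanishes_of_equiv Subgroup.topEquiv he h1, h2', ?_⟩
  rw [h3']
  rwa [Subgroup.card_top] at h3

end Fermat.Agent.ClassField.Idele
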