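import Fermat.Agent.ClassField.Idele.Fundamental.Inflated
import Fermat.Agent.ClassField.Idele.Cyclotomic.Auxiliary

/-!
# The global fundamental class, `p`-part

For a finite normal `L ∋ ζ_p` (`p` odd) a class `u ∈ H²(Gal(L/ℚ), C_L)` killed by a power of `p`,
whose restriction to every `p`-subgroup `P` generates `H²(P, C_L)`, cyclic of order `#P`.
-/

set_option autoImplicit false

noncomputable section

open IntermediateField

namespace Fermat.Agent.ClassField.Idele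

local notation "Qb" => AlgebraicClosure ℚ
local notation "Γ" => (AlgebraicClosure ℚ ≃ₐ[ℚ] AlgebraicClosure ℚ)

open CochainH2 (H2 restriction)

variable {p : ℕ} [Fact p.Prime] (hp : p ≠ 2) (L : IntermediateField ℚ Qb) [FiniteDimensional ℚ L]
  [Normal ℚ L] {ζ : Qb} (hζ : IsPrimitiveRoot ζ p) (hζL : ζ ∈ L)

include hp hζ hζL in
/-- A class of exact order on the `p`-subgroups. -/
theorem exists_class_of_exact_order :
    ∃ u : H2 (Γ ⧸ L.fixingSubgroup) (LevelMod L.fixingSubgroup),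
      ∀ (P : Subgroup (Γ ⧸ L.fixingSubgroup)), IsPGroup p P →
        ∀ j : ℤ, j • restriction P u = 0 → (Nat.card P : ℤ) ∣ j := by
  classical
  have hp' := (Fact.out : p.Prime)
  set G := Γ ⧸ L.fixingSubgroup
  set n := (Nat.card G).factorization p with hn
  obtain ⟨q, D, s, hD, hindex, hns, hcyc, -, hsurj, -⟩ :=
    exists_auxiliary (p := p) hp L.fixingSubgroup (n + 1) (a := 2) le_rfl
  have : NeZero (p ^ s) := ⟨pow_ne_zero s hp'.ne_zero⟩
  have hcardA : Nat.card ((ZMod (q : ℕ))ˣ ⧸ D) = p ^ s := hindex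
  let e : (ZMod (q : ℕ))ˣ ⧸ D ≃* Multiplicative (ZMod (p ^ s)) :=
    mulEquivOfCyclicCardEq (by rw [hcardA, Nat.card_congr Multiplicative.toAdd, Nat.card_zmod])
  -- a rational class with symbol of order `p ^ n`
  obtain ⟨g, hg⟩ := IsCyclic.exists_ofOrder_eq_natCard (α := (ZMod (q : ℕ))ˣ ⧸ D)
  rw [hcardA] at hg
  obtain ⟨⟨C, hC⟩, hCa⟩ := thetaCls_surjective q D hD L hsurj (g ^ p ^ (s - n))
  obtain ⟨f, hf, rfl⟩ := hC
  set d := classMap Set.univ (relNorm ⊥ L f) with hd_def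
  have hd : d ∈ classesOf Set.univ (⊥ : IntermediateField ℚ Qb) :=
    ⟨_, relNorm_mem_idelesOf hf, rfl⟩
  have hθ0 : thetaCls q D hD ⊥ ⟨d, hd⟩ = g ^ p ^ (s - n) := by
    rw [← hCa]
    refine (thetaCls_classMap q D hD ⟨relNorm ⊥ L f, relNorm_mem_idelesOf hf⟩).trans
      (Eq.trans ?_ (thetaCls_classMap q D hD ⟨f, hf⟩).symm)
    refine congrArg (theta q D) (Subtype.ext ?_)
    show relNorm ⊥ (⊥ : IntermediateField ℚ Qb) (relNorm ⊥ L f) = relNorm ⊥ L f
    have hinv : relNorm ⊥ L f ∈ invariants IdeleGroup (⊥ : IntermediateField ℚ Qb).fixingSubgroup :=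
      relNorm_mem_idelesOf hf
    exact (cosetProd_eq_pow hinv).trans (by rw [Subgroup.relIndex_self, pow_one])
  have horder : orderOf (thetaCls q D hD ⊥ ⟨d, hd⟩) = p ^ n := by
    rw [hθ0, orderOf_pow' g (pow_ne_zero _ hp'.ne_zero), hg,
      Nat.gcd_eq_right (pow_dvd_pow p (Nat.sub_le s n)), Nat.pow_div (Nat.sub_le s n) hp'.pos]
    congr 1
    omega
  have hdM : Additive.ofMul d ∈ LevelMod (auxLevel q D L).fixingSubgroup := fun σ _ =>
    congrArg Additive.ofMul (mem_classesOf_univ_iff.1 hd σ (by rw [fixingSubgroup_bot_eq_top]; trivial))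
  set c : LevelMod (auxLevel q D L).fixingSubgroup := ⟨Additive.ofMul d, hdM⟩
  have hc : ∀ x : Γ ⧸ (auxLevel q D L).fixingSubgroup, x • c = c := fun x => by
    obtain ⟨γ, rfl⟩ := QuotientGroup.mk_surjective x
    exact Subtype.ext ((Devissage.coe_mk_smul _ γ c).trans (congrArg Additive.ofMul
      (mem_classesOf_univ_iff.1 hd γ (by rw [fixingSubgroup_bot_eq_top]; trivial))))
  have hdL : d ∈ classesOf Set.univ L := mem_classesOf_univ_iff.2 fun σ _ =>
    mem_classesOf_univ_iff.1 hd σ (by rw [fixingSubgroup_bot_eq_top]; trivial)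
  have hθL : thetaCls q D hD L ⟨d, hdL⟩ = 1 := by
    rw [thetaCls_of_bot q D hD hd hdL, ← orderOf_dvd_iff_pow_eq_one, horder]
    exact Nat.ordProj_dvd (Nat.card G) p
  obtain ⟨u, hu⟩ := exists_inflation_preimage q D L e hp hζ hζL hD rfl hsurj hc hdL hθL
  refine ⟨u, fun P hP j hj => ?_⟩
  have h := dvd_of_smul_restriction_eq_zero q D L e hp hζ hζL hD (Nat.one_lt_pow (by omega) hp'.one_lt)
    hsurj hc hd hu P hP j hj
  rw [show (orderOf (thetaCls q D hD ⊥ ⟨(c : Cls).toMul, hd⟩) : ℤ) = ((p ^ n : ℕ) : ℤ) from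
    congrArg Nat.cast horder] at h
  obtain ⟨m, hm⟩ := hP.exists_card_eq
  have hG : Nat.card G = p ^ n * (Nat.card G / p ^ n) := (Nat.mul_div_cancel' (Nat.ordProj_dvd _ p)).symm
  have hcop : (p ^ m).Coprime (Nat.card G / p ^ n) :=
    (Nat.coprime_ordCompl hp' Nat.card_pos.ne').pow_left m
  rw [hm]
  have h2 : ((p ^ m : ℕ) : ℤ) * ((p ^ n : ℕ) : ℤ) ∣ ((p ^ n : ℕ) : ℤ) * ((Nat.card G / p ^ n : ℕ) : ℤ) * j := by
    rw [← Nat.cast_mul (p ^ n) (Nat.card G / p ^ n), ← hG,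
      ← Subgroup.card_mul_index P, hm, Nat.cast_mul, mul_assoc]
    refine mul_dvd_mul_left _ ?_
    rwa [mul_comm]
  rw [mul_assoc, mul_comm ((p ^ m : ℕ) : ℤ)] at h2
  exact (Nat.isCoprime_iff_coprime.2 hcop).dvd_of_dvd_mul_left
    ((mul_dvd_mul_iff_left (by exact_mod_cast pow_ne_zero n hp'.ne_zero)).1 h2)

include hp hζ hζL in
/-- **The `p`-part of the global fundamental class.** -/
theorem exists_fundamental_univ :
    ∃ u : H2 (Γ ⧸ L.fixingSubgroup) (LevelMod L.fixingSubgroup),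
      (∃ n : ℕ, p ^ n • u = 0) ∧
        ∀ (P : Subgroup (Γ ⧸ L.fixingSubgroup)), IsPGroup p P →
          (∀ j : ℤ, j • restriction P u = 0 → (Nat.card P : ℤ) ∣ j) ∧
            ∀ z : H2 P (LevelMod L.fixingSubgroup), ∃ k : ℤ, z = k • restriction P u := by
  classical
  have hp' := (Fact.out : p.Prime)
  obtain ⟨u₀, hu₀⟩ := exists_class_of_exact_order hp L hζ hζL
  let P₀ : Sylow p (Γ ⧸ L.fixingSubgroup) := default
  set m := (P₀ : Subgroup (Γ ⧸ L.fixingSubgroup)).index with hm_def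
  have hm : ¬ p ∣ m := P₀.not_dvd_index
  obtain ⟨n, hn⟩ := P₀.isPGroup'.exists_card_eq
  have hord : ∀ (P : Subgroup (Γ ⧸ L.fixingSubgroup)), IsPGroup p P → ∀ j : ℤ,
      j • restriction P (m • u₀) = 0 → (Nat.card P : ℤ) ∣ j := fun P hP j hj => by
    obtain ⟨a, ha⟩ := hP.exists_card_eq
    rw [map_nsmul, ← natCast_zsmul, ← mul_zsmul] at hj
    have h := hu₀ P hP _ hj
    rw [ha] at h ⊢
    exact (Nat.isCoprime_iff_coprime.2
      (((hp'.coprime_iff_not_dvd).2 hm).pow_left a)).dvd_of_dvd_mul_right h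
  have hgen : ∀ (P : Subgroup (Γ ⧸ L.fixingSubgroup)), IsPGroup p P →
      ∀ v : H2 P (LevelMod L.fixingSubgroup),
      (∀ j : ℤ, j • v = 0 → (Nat.card P : ℤ) ∣ j) →
        (Nat.card P • v = 0 ∧ ∀ z : H2 P (LevelMod L.fixingSubgroup), ∃ k : ℤ, z = k • v) := by
    intro P hP v hv
    obtain ⟨-, hfin, hcard⟩ := h1_h2_levelMod hp hζ hζL P hP
    have hdvd : Nat.card P ∣ addOrderOf v := Int.natCast_dvd_natCast.1
      (hv _ (by rw [natCast_zsmul, addOrderOf_nsmul_eq_zero]))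
    have hle : Nat.card P ≤ addOrderOf v := Nat.le_of_dvd (addOrderOf_pos v) hdvd
    have htop : AddSubgroup.zmultiples v = ⊤ := AddSubgroup.eq_top_of_le_card _ (by
      rw [Nat.card_zmultiples]; exact hcard.trans hle)
    have heq : addOrderOf v = Nat.card P := le_antisymm (by
      rw [← Nat.card_zmultiples]; exact (Nat.card_le_card_of_injective _ Subtype.val_injective).trans hcard) hle
    refine ⟨by rw [← heq, addOrderOf_nsmul_eq_zero], fun z => ?_⟩
    obtain ⟨k, hk⟩ := AddSubgroup.mem_zmultiples_iff.1 (htop ▸ AddSubgroup.mem_top z)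
    exact ⟨k, hk.symm⟩
  refine ⟨m • u₀, ⟨n, ?_⟩, fun P hP => ⟨hord P hP, (hgen P hP _ (hord P hP)).2⟩⟩
  have h0 : restriction (P₀ : Subgroup (Γ ⧸ L.fixingSubgroup)) (p ^ n • u₀) = 0 := by
    rw [map_nsmul, ← hn]
    exact (hgen _ P₀.isPGroup' _ (hu₀ _ P₀.isPGroup')).1
  rw [← mul_nsmul', mul_comm, mul_nsmul']
  exact CochainH2.index_smul_eq_zero _ h0

end Fermat.Agent.ClassField.Idele
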