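import Fermat.Agent.ClassField.Idele.Fundamental.LevelModule
import Fermat.Agent.ClassField.Idele.Cyclotomic.Symbol
import Fermat.Agent.ClassField.RestrictionH2

/-!
# The class obtained from an auxiliary cyclotomic field

For a level `L` and an auxiliary field `F ⊆ ℚ(ζ_q)` disjoint from it, the cyclic class of a
rational idele class `c` on `Gal(LF/ℚ)` dies on `Gal(LF/L)` when `θ_L(c) = 1`, hence descends to
`Gal(L/ℚ)`; if `θ(c)` has order `p ^ n` then it has exact order on the `p`-subgroups.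
-/

set_option autoImplicit false
set_option linter.unusedSectionVars false

noncomputable section

open IntermediateField

namespace Fermat.Agent.ClassField.Idele

local notation "Qb" => AlgebraicClosure ℚ
local notation "Γ" => (AlgebraicClosure ℚ ≃ₐ[ℚ] AlgebraicClosure ℚ)

open CochainH2 (H2 Z2 restriction)

variable (q : Nat.Primes) (D : Subgroup (ZMod (q : ℕ))ˣ)

instance normal_subField : Normal ℚ (subField q D) :=
  IntermediateField.normal_iff_forall_map_le'.2 fun σ => by
    rintro _ ⟨x, hx, rfl⟩ ⟨τ, hτ⟩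
    show τ (σ x) = σ x
    have hconj : σ⁻¹ * τ * σ ∈ (cyclotomicClass q D).ker := by
      simpa using ((cyclotomicClass q D).normal_ker).conj_mem τ hτ σ⁻¹
    have h : σ.symm (τ (σ x)) = x := hx ⟨_, hconj⟩
    exact (AlgEquiv.symm_apply_eq σ).1 h

variable (L : IntermediateField ℚ Qb) [FiniteDimensional ℚ L] [Normal ℚ L]

/-- The composite of the level with the auxiliary field. -/
abbrev auxLevel : IntermediateField ℚ Qb := L ⊔ subField q D

instance normal_auxLevel : Normal ℚ (auxLevel q D L) :=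
  IntermediateField.normal_iff_forall_map_le'.2 fun σ =>
    ((L.map_sup (subField q D) (σ : Qb →ₐ[ℚ] Qb)).trans_le
      (sup_le_sup (IntermediateField.normal_iff_forall_map_le'.1 ‹Normal ℚ L› σ)
        (IntermediateField.normal_iff_forall_map_le'.1 (normal_subField q D) σ)))

instance finiteDimensional_auxLevel : FiniteDimensional ℚ (auxLevel q D L) :=
  IntermediateField.finiteDimensional_sup L (subField q D)

instance normal_fixingSubgroup_auxLevel : (auxLevel q D L).fixingSubgroup.Normal :=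
  normal_fixingSubgroup (auxLevel q D L)

lemma auxLevel_le_ker : (auxLevel q D L).fixingSubgroup ≤ (cyclotomicClass q D).ker := by
  rw [← fixingSubgroup_subField]
  exact fixingSubgroup_antitone le_sup_right

lemma fixingSubgroup_auxLevel_le : (auxLevel q D L).fixingSubgroup ≤ L.fixingSubgroup :=
  fixingSubgroup_antitone le_sup_left

lemma mem_fixingSubgroup_auxLevel {γ : Γ} (h1 : γ ∈ L.fixingSubgroup)
    (h2 : cyclotomicClass q D γ = 1) : γ ∈ (auxLevel q D L).fixingSubgroup := by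
  rw [IntermediateField.fixingSubgroup_sup, fixingSubgroup_subField]
  exact ⟨h1, h2⟩

/-- The projection between the level groups. -/
def auxProj : Γ ⧸ (auxLevel q D L).fixingSubgroup →* Γ ⧸ L.fixingSubgroup :=
  QuotientGroup.map _ _ (MonoidHom.id Γ) (fixingSubgroup_auxLevel_le q D L)

lemma auxProj_mk (γ : Γ) : auxProj q D L (γ : Γ ⧸ (auxLevel q D L).fixingSubgroup) = (γ : Γ ⧸ L.fixingSubgroup) :=
  rfl

lemma auxProj_surjective : Function.Surjective (auxProj q D L) := fun x => by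
  obtain ⟨γ, rfl⟩ := QuotientGroup.mk_surjective x
  exact ⟨γ, rfl⟩

/-- The class character on the level group. -/
def auxChar : Γ ⧸ (auxLevel q D L).fixingSubgroup →* (ZMod (q : ℕ))ˣ ⧸ D :=
  QuotientGroup.lift _ (cyclotomicClass q D) (auxLevel_le_ker q D L)

lemma auxChar_mk (γ : Γ) :
    auxChar q D L (γ : Γ ⧸ (auxLevel q D L).fixingSubgroup) = cyclotomicClass q D γ := rfl

lemma eq_one_of_proj_char {g : Γ ⧸ (auxLevel q D L).fixingSubgroup} (h1 : auxProj q D L g = 1)
    (h2 : auxChar q D L g = 1) : g = 1 := by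
  obtain ⟨γ, rfl⟩ := QuotientGroup.mk_surjective g
  exact (QuotientGroup.eq_one_iff γ).2
    (mem_fixingSubgroup_auxLevel q D L ((QuotientGroup.eq_one_iff γ).1 h1) h2)

/-- The inclusion of the classes. -/
def auxIncl : LevelMod L.fixingSubgroup →+ LevelMod (auxLevel q D L).fixingSubgroup :=
  AddSubgroup.inclusion fun _ hx g hg => hx g (fixingSubgroup_auxLevel_le q D L hg)

lemma auxIncl_smul (g : Γ ⧸ (auxLevel q D L).fixingSubgroup) (b : LevelMod L.fixingSubgroup) :
    auxIncl q D L (auxProj q D L g • b) = g • auxIncl q D L b := by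
  obtain ⟨γ, rfl⟩ := QuotientGroup.mk_surjective g
  exact Subtype.ext ((Devissage.coe_mk_smul L.fixingSubgroup γ b).trans
    (Devissage.coe_mk_smul (auxLevel q D L).fixingSubgroup γ (auxIncl q D L b)).symm)

variable {N : ℕ} [NeZero N] (e : (ZMod (q : ℕ))ˣ ⧸ D ≃* Multiplicative (ZMod N))

/-- The exponent of the class. -/
def auxIdx (g : Γ ⧸ (auxLevel q D L).fixingSubgroup) : ℕ :=
  (e (auxChar q D L g)).toAdd.val

lemma auxIdx_lt (g : Γ ⧸ (auxLevel q D L).fixingSubgroup) : auxIdx q D L e g < N := ZMod.val_lt _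

lemma auxIdx_mul (g h : Γ ⧸ (auxLevel q D L).fixingSubgroup) :
    auxIdx q D L e (g * h) = (auxIdx q D L e g + auxIdx q D L e h) % N := by
  rw [auxIdx, auxIdx, auxIdx, map_mul, map_mul, toAdd_mul, ZMod.val_add]

lemma auxIdx_eq_zero {g : Γ ⧸ (auxLevel q D L).fixingSubgroup} (h : auxChar q D L g = 1) :
    auxIdx q D L e g = 0 := by
  rw [auxIdx, h, map_one, toAdd_one, ZMod.val_zero]

lemma auxIdx_inj {g g' : Γ ⧸ (auxLevel q D L).fixingSubgroup}
    (h : auxIdx q D L e g = auxIdx q D L e g') : auxChar q D L g = auxChar q D L g' :=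
  e.injective (Multiplicative.toAdd.injective (ZMod.val_injective N h))

/-- The carry cocycle of a class fixed by the whole group. -/
def auxCocycleFun (c : LevelMod (auxLevel q D L).fixingSubgroup) :
    (Γ ⧸ (auxLevel q D L).fixingSubgroup) × (Γ ⧸ (auxLevel q D L).fixingSubgroup) →
      LevelMod (auxLevel q D L).fixingSubgroup :=
  fun x => ((auxIdx q D L e x.1 + auxIdx q D L e x.2) / N) • c

lemma auxCocycleFun_mem {c : LevelMod (auxLevel q D L).fixingSubgroup}
    (hc : ∀ g : Γ ⧸ (auxLevel q D L).fixingSubgroup, g • c = c) :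
    auxCocycleFun q D L e c ∈ Z2 (Γ ⧸ (auxLevel q D L).fixingSubgroup)
      (LevelMod (auxLevel q D L).fixingSubgroup) := fun g h k => by
  have hn : 0 < N := NeZero.pos N
  simp only [auxCocycleFun, auxIdx_mul, smul_comm g, hc, ← add_nsmul]
  congr 1
  set a := auxIdx q D L e g
  set b := auxIdx q D L e h
  set d := auxIdx q D L e k
  have e1 : ((a + b) % N + d) / N + (a + b) / N = (a + b + d) / N := by
    conv_rhs => rw [show a + b + d = (a + b) % N + d + N * ((a + b) / N) by
      have := Nat.mod_add_div (a + b) N; omega]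
    rw [Nat.add_mul_div_left _ _ hn]
  have e2 : (b + d) / N + (a + (b + d) % N) / N = (a + b + d) / N := by
    conv_rhs => rw [show a + b + d = a + (b + d) % N + N * ((b + d) / N) by
      have := Nat.mod_add_div (b + d) N; omega]
    rw [Nat.add_mul_div_left _ _ hn, add_comm]
  rw [e1, e2]

lemma exists_gen (hsurj : ∀ a, ∃ g ∈ L.fixingSubgroup, cyclotomicClass q D g = a) :
    ∃ γ : Γ, γ ∈ L.fixingSubgroup ∧
      auxIdx q D L e (γ : Γ ⧸ (auxLevel q D L).fixingSubgroup) = 1 % N ∧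
      ∀ i : ℕ, auxIdx q D L e ((γ ^ i : Γ) : Γ ⧸ (auxLevel q D L).fixingSubgroup) = i % N := by
  obtain ⟨γ, hγ, hcl⟩ := hsurj (e.symm (Multiplicative.ofAdd 1))
  have h1 : auxIdx q D L e (γ : Γ ⧸ (auxLevel q D L).fixingSubgroup) = 1 % N := by
    rw [auxIdx, auxChar_mk, hcl, MulEquiv.apply_symm_apply, toAdd_ofAdd, ZMod.val_one_eq_one_mod]
  refine ⟨γ, hγ, h1, fun i => ?_⟩
  induction i with
  | zero => rw [pow_zero, QuotientGroup.mk_one, auxIdx_eq_zero q D L e (map_one _), Nat.zero_mod]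
  | succ i ih => rw [pow_succ, QuotientGroup.mk_mul, auxIdx_mul, ih, h1, ← Nat.add_mod]

lemma relNorm_eq_prod_range {M : Type*} [CommGroup M] [MulDistribMulAction Γ M]
    {k F : IntermediateField ℚ Qb} [FiniteDimensional ℚ F] {γ : Γ} (hγ : γ ∈ k.fixingSubgroup)
    (hinj : ∀ i < N, ∀ j < N, (γ ^ i)⁻¹ * γ ^ j ∈ F.fixingSubgroup → i = j)
    (hsur : ∀ h ∈ k.fixingSubgroup, ∃ i < N, (γ ^ i)⁻¹ * h ∈ F.fixingSubgroup)
    {m : M} (hm : m ∈ invariants M F.fixingSubgroup) :
    relNorm k F m = ∏ i ∈ Finset.range N, γ ^ i • m := by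
  let s : Fin N → k.fixingSubgroup := fun i => ⟨γ ^ (i : ℕ), pow_mem hγ _⟩
  have hbij : Function.Bijective fun i : Fin N => (QuotientGroup.mk (s i) :
      k.fixingSubgroup ⧸ F.fixingSubgroup.subgroupOf k.fixingSubgroup) := by
    refine ⟨fun i j h => Fin.ext (hinj i i.2 j j.2 ?_), fun x => ?_⟩
    · exact Subgroup.mem_subgroupOf.1 (QuotientGroup.eq.1 h)
    · obtain ⟨h, rfl⟩ := QuotientGroup.mk_surjective x
      obtain ⟨i, hi, hmem⟩ := hsur h h.2
      exact ⟨⟨i, hi⟩, QuotientGroup.eq.2 (Subgroup.mem_subgroupOf.2 hmem)⟩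
  rw [relNorm, cosetProd_eq_finprod hm (Equiv.ofBijective _ hbij) s fun _ => rfl,
    finprod_eq_prod_of_fintype, Finset.prod_range]

lemma toMul_sum_pow_smul (γ : Γ) (b : LevelMod (auxLevel q D L).fixingSubgroup) :
    ((∑ i ∈ Finset.range N, ((γ ^ i : Γ) : Γ ⧸ (auxLevel q D L).fixingSubgroup) • b :
      LevelMod (auxLevel q D L).fixingSubgroup) : Cls).toMul =
      ∏ i ∈ Finset.range N, γ ^ i • (b : Cls).toMul := by
  rw [AddSubgroup.val_finsetSum, toMul_sum]
  exact Finset.prod_congr rfl fun i _ => congrArg Additive.toMul (Devissage.coe_mk_smul _ _ b)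

variable {p : ℕ} [Fact p.Prime] (hp : p ≠ 2) {ζ : Qb} (hζ : IsPrimitiveRoot ζ p) (hζL : ζ ∈ L)
  (hD : (-1 : (ZMod (q : ℕ))ˣ) ∈ D)

set_option maxHeartbeats 1000000 in
include hp hζ hζL hD in
/-- A rational class with trivial symbol at `L` gives a class dying on `Gal(LF/L)`. -/
theorem exists_inflation_preimage {s : ℕ} (hN : N = p ^ s)
    (hsurj : ∀ a, ∃ g ∈ L.fixingSubgroup, cyclotomicClass q D g = a)
    {c : LevelMod (auxLevel q D L).fixingSubgroup}
    (hc : ∀ g : Γ ⧸ (auxLevel q D L).fixingSubgroup, g • c = c)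
    (hcL : (c : Cls).toMul ∈ classesOf Set.univ L)
    (hθ : thetaCls q D hD L ⟨(c : Cls).toMul, hcL⟩ = 1) :
    ∃ u : H2 (Γ ⧸ L.fixingSubgroup) (LevelMod L.fixingSubgroup),
      CochainH2.map (auxProj q D L) (auxIncl q D L) (auxIncl_smul q D L) u =
        CochainH2.mk _ _ ⟨_, auxCocycleFun_mem q D L e hc⟩ := by
  classical
  set π := auxProj q D L with hπdef
  have hAcard : Nat.card ((ZMod (q : ℕ))ˣ ⧸ D) = p ^ s := by
    rw [Nat.card_congr e.toEquiv, Nat.card_congr Multiplicative.toAdd, Nat.card_zmod, hN]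
  have hinj : Function.Injective ((auxChar q D L).comp π.ker.subtype) :=
    (injective_iff_map_eq_one _).2 fun g hg => Subtype.ext (eq_one_of_proj_char q D L g.2 hg)
  have hker : IsPGroup p π.ker := (IsPGroup.of_card hAcard).of_injective _ hinj
  obtain ⟨hh1, hfin, hcard⟩ := h1_h2_levelMod (L := (auxLevel q D L)) hp hζ
    ((le_sup_left : L ≤ (auxLevel q D L)) hζL) π.ker hker
  have hkcard : Nat.card π.ker ≤ Nat.card ((ZMod (q : ℕ))ˣ ⧸ D) :=
    Nat.card_le_card_of_injective _ hinj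
  obtain ⟨γ, hγ, -, hγi⟩ := exists_gen q D L e hsurj
  let t : π.ker := ⟨(γ : Γ ⧸ (auxLevel q D L).fixingSubgroup), (QuotientGroup.eq_one_iff γ).2 hγ⟩
  have htpow : ∀ i : ℕ, ((t ^ i : π.ker) : Γ ⧸ (auxLevel q D L).fixingSubgroup) = ((γ ^ i : Γ) : Γ ⧸ (auxLevel q D L).fixingSubgroup) :=
    fun i => (SubmonoidClass.coe_pow t i).trans (QuotientGroup.mk_pow _ γ i).symm
  have hidx : ∀ i : ℕ, auxIdx q D L e ((t ^ i : π.ker) : Γ ⧸ (auxLevel q D L).fixingSubgroup) = i % N := fun i => by
    rw [htpow]; exact hγi i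
  have hgen : ∀ g : π.ker, g ∈ Submonoid.powers t := fun g => by
    refine ⟨auxIdx q D L e g, hinj ?_⟩
    show auxChar q D L ((t ^ auxIdx q D L e g : π.ker) : Γ ⧸ (auxLevel q D L).fixingSubgroup) =
      auxChar q D L (g : Γ ⧸ (auxLevel q D L).fixingSubgroup)
    exact auxIdx_inj q D L e ((hidx _).trans (Nat.mod_eq_of_lt (auxIdx_lt q D L e g)))
  have hord : orderOf t = N := by
    refine (orderOf_eq_iff (NeZero.pos N)).2 ⟨hinj ?_, fun i hi h0 h => ?_⟩
    · show auxChar q D L ((t ^ N : π.ker) : Γ ⧸ (auxLevel q D L).fixingSubgroup) =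
        auxChar q D L ((1 : π.ker) : Γ ⧸ (auxLevel q D L).fixingSubgroup)
      refine auxIdx_inj q D L e ((hidx N).trans ?_)
      rw [Nat.mod_self, Subgroup.coe_one, auxIdx_eq_zero q D L e (map_one _)]
    · have h' := hidx i
      rw [h, Subgroup.coe_one, auxIdx_eq_zero q D L e (map_one _), Nat.mod_eq_of_lt hi] at h'
      omega
  -- invariants of the kernel are classes of `L`
  have hinvL : ∀ f : Z2 π.ker (LevelMod (auxLevel q D L).fixingSubgroup),
      ((CyclicH2.inv t f : LevelMod (auxLevel q D L).fixingSubgroup) : Cls).toMul ∈ classesOf Set.univ L := fun f => by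
    refine mem_classesOf_univ_iff.2 fun σ hσ => ?_
    obtain ⟨i, hi⟩ := Submonoid.mem_powers_iff _ _ |>.1
      (hgen ⟨(σ : Γ ⧸ (auxLevel q D L).fixingSubgroup), (QuotientGroup.eq_one_iff σ).2 hσ⟩)
    have hfix : ∀ i : ℕ, t ^ i • CyclicH2.inv t f = CyclicH2.inv t f := fun i => by
      induction i with
      | zero => rw [pow_zero, one_smul]
      | succ i ih => rw [pow_succ, mul_smul, CyclicH2.smul_inv, ih]
    have h := congrArg (fun b : LevelMod (auxLevel q D L).fixingSubgroup => (b : Cls).toMul)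
      ((congrArg (· • CyclicH2.inv t f) hi).symm.trans (hfix i))
    change (((σ : Γ ⧸ (auxLevel q D L).fixingSubgroup) • CyclicH2.inv t f : LevelMod (auxLevel q D L).fixingSubgroup) : Cls).toMul =
      _ at h
    rw [Devissage.coe_mk_smul] at h
    exact h
  let ψ : Z2 π.ker (LevelMod (auxLevel q D L).fixingSubgroup) →+ Additive ((ZMod (q : ℕ))ˣ ⧸ D) :=
    AddMonoidHom.mk' (fun f => Additive.ofMul (thetaCls q D hD L ⟨_, hinvL f⟩)) fun f g => by
      rw [← ofMul_mul, ← map_mul]
      congr 2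
      exact Subtype.ext (congrArg (fun b : LevelMod (auxLevel q D L).fixingSubgroup => (b : Cls).toMul)
        (map_add (CyclicH2.inv t) f g))
  have hψ0 : ∀ f, CochainH2.mk _ _ f = 0 → ψ f = 0 := fun f hf => by
    obtain ⟨b, hb⟩ := (CyclicH2.mk_eq_zero_iff t hgen (isOfFinOrder_of_finite t) f).1 hf
    have hbM : (b : Cls).toMul ∈ invariants (IdeleClass Set.univ) (auxLevel q D L).fixingSubgroup :=
      fun σ hσ => congrArg Additive.toMul (b.2 σ hσ)
    have hN' : relNorm L (auxLevel q D L) (b : Cls).toMul =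
        ((CyclicH2.inv t f : LevelMod (auxLevel q D L).fixingSubgroup) : Cls).toMul := by
      rw [← hb, CyclicH2.normSum_apply, hord,
        relNorm_eq_prod_range (N := N) hγ (fun i hi j hj h => ?_) (fun h hh => ?_) hbM,
        ← toMul_sum_pow_smul q D L γ b]
      · refine congrArg (fun z : LevelMod (auxLevel q D L).fixingSubgroup => (z : Cls).toMul)
          (Finset.sum_congr rfl fun i _ => ?_)
        rw [← htpow]
        rfl
      · have h1 := hγi i
        rw [show ((γ ^ i : Γ) : Γ ⧸ (auxLevel q D L).fixingSubgroup) = ((γ ^ j : Γ) : Γ ⧸ (auxLevel q D L).fixingSubgroup) from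
          QuotientGroup.eq.2 h, hγi j, Nat.mod_eq_of_lt hi, Nat.mod_eq_of_lt hj] at h1
        exact h1.symm
      · obtain ⟨i, hi⟩ := Submonoid.mem_powers_iff _ _ |>.1
          (hgen ⟨(h : Γ ⧸ (auxLevel q D L).fixingSubgroup), (QuotientGroup.eq_one_iff h).2 hh⟩)
        refine ⟨i % N, Nat.mod_lt _ (NeZero.pos N), QuotientGroup.eq.1 ?_⟩
        rw [← htpow, ← hord, pow_mod_orderOf, hi]
    refine congrArg Additive.ofMul ?_
    have h := thetaCls_relNorm q D hD (le_sup_left : L ≤ (auxLevel q D L)) (le_sup_right : subField q D ≤ (auxLevel q D L))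
      (mem_levelMod_iff.1 b.2) (hN' ▸ hinvL f)
    convert h using 2
    exact Subtype.ext hN'.symm
  let Ψ : H2 π.ker (LevelMod (auxLevel q D L).fixingSubgroup) →+ Additive ((ZMod (q : ℕ))ˣ ⧸ D) :=
    QuotientAddGroup.lift _ ψ fun f hf => hψ0 f ((QuotientAddGroup.eq_zero_iff f).2 hf)
  have hΨsurj : Function.Surjective Ψ := fun a => by
    obtain ⟨⟨d, hd⟩, hda⟩ := thetaCls_surjective q D hD L hsurj a.toMul
    have hdM : Additive.ofMul d ∈ LevelMod (auxLevel q D L).fixingSubgroup := fun σ hσ =>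
      congrArg Additive.ofMul (mem_classesOf_univ_iff.1 hd σ (fixingSubgroup_auxLevel_le q D L hσ))
    set b : LevelMod (auxLevel q D L).fixingSubgroup := ⟨Additive.ofMul d, hdM⟩
    have htb : t • b = b := Subtype.ext ((Devissage.coe_mk_smul _ γ b).trans
      (congrArg Additive.ofMul (mem_classesOf_univ_iff.1 hd γ hγ)))
    refine ⟨CochainH2.mk _ _ ⟨_, CyclicH2.cocycle_mem_Z2 t hgen (isOfFinOrder_of_finite t) htb⟩, ?_⟩
    show ψ _ = a
    rcases eq_or_lt_of_le (Nat.one_le_iff_ne_zero.2 (NeZero.ne N)) with h1 | h1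
    · have : Subsingleton ((ZMod (q : ℕ))ˣ ⧸ D) := by
        have hs : Subsingleton (Multiplicative (ZMod N)) := by
          rw [← h1]; infer_instance
        exact e.toEquiv.subsingleton
      exact Additive.toMul.injective (Subsingleton.elim _ _)
    · have hinv : CyclicH2.inv t ⟨_, CyclicH2.cocycle_mem_Z2 t hgen (isOfFinOrder_of_finite t) htb⟩ = b := by
        have h := CyclicH2.sum_cocycle_pow t (isOfFinOrder_of_finite t) b 1 (orderOf t)
        simp only [one_mul, pow_one] at h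
        rw [CyclicH2.inv_apply]
        refine h.trans ?_
        rw [hord, Nat.mod_eq_of_lt h1, one_mul, Nat.div_self (NeZero.pos N), one_nsmul]
      refine Additive.toMul.injective ?_
      rw [← hda]
      show thetaCls q D hD L _ = _
      congr 1
      exact Subtype.ext (congrArg (fun z : LevelMod (auxLevel q D L).fixingSubgroup => (z : Cls).toMul) hinv)
  have hΨinj : Function.Injective Ψ :=
    (Nat.bijective_iff_surjective_and_card Ψ).2 ⟨hΨsurj, le_antisymm
      ((hcard.trans hkcard).trans_eq (Nat.card_congr Additive.ofMul))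
      (Nat.card_le_card_of_surjective Ψ hΨsurj)⟩ |>.1
  set x : Z2 (Γ ⧸ (auxLevel q D L).fixingSubgroup) (LevelMod (auxLevel q D L).fixingSubgroup) := ⟨_, auxCocycleFun_mem q D L e hc⟩
  have hres : CochainH2.map π.ker.subtype (AddMonoidHom.id _) (fun _ _ => rfl)
      (CochainH2.mk _ _ x) = 0 := by
    refine hΨinj ?_
    rw [map_zero]
    show ψ ⟨_, CochainH2.cochainMap_mem_Z2 π.ker.subtype (AddMonoidHom.id _) (fun _ _ => rfl) x.2⟩ = 0
    refine congrArg Additive.ofMul ?_
    have hsum : ∀ T : Finset ℕ, ∃ k : ℕ, ∑ i ∈ T, auxCocycleFun q D L e c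
        (((t ^ i : π.ker) : Γ ⧸ (auxLevel q D L).fixingSubgroup), (t : Γ ⧸ (auxLevel q D L).fixingSubgroup)) = k • c :=
      fun T => ⟨_, (Finset.sum_smul (R := ℕ)).symm⟩
    obtain ⟨k, hk⟩ := hsum (Finset.range (orderOf t))
    convert (map_pow (thetaCls q D hD L) ⟨(c : Cls).toMul, hcL⟩ k).trans (by rw [hθ, one_pow]) using 2
    refine Subtype.ext ?_
    rw [SubmonoidClass.coe_pow]
    refine Eq.trans (congrArg (fun z : LevelMod (auxLevel q D L).fixingSubgroup => (z : Cls).toMul) hk) ?_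
    show ((k • c : LevelMod (auxLevel q D L).fixingSubgroup) : Cls).toMul = (c : Cls).toMul ^ k
    rw [AddSubgroup.coe_nsmul, toMul_nsmul]
  exact CochainH2.mem_range_inflation π (auxProj_surjective q D L) (auxIncl q D L)
    (AddSubgroup.inclusion_injective _) (auxIncl_smul q D L)
    (fun a ha => ⟨⟨(a : Cls), fun σ hσ => by
      have h := congrArg Subtype.val (ha ⟨(σ : Γ ⧸ (auxLevel q D L).fixingSubgroup), (QuotientGroup.eq_one_iff σ).2 hσ⟩)
      exact (Devissage.coe_mk_smul _ σ a).symm.trans h⟩, Subtype.ext rfl⟩)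
    hh1 _ hres

set_option maxHeartbeats 1000000 in
/-- Order of the restriction to a `p`-subgroup. -/
theorem dvd_of_smul_restriction_eq_zero (hζp : p ≠ 2) (hζ' : IsPrimitiveRoot ζ p) (hζL' : ζ ∈ L)
    (hD' : (-1 : (ZMod (q : ℕ))ˣ) ∈ D) (hN1 : 1 < N)
    (hsurj : ∀ a, ∃ g ∈ L.fixingSubgroup, cyclotomicClass q D g = a)
    {c : LevelMod (auxLevel q D L).fixingSubgroup}
    (hc : ∀ g : Γ ⧸ (auxLevel q D L).fixingSubgroup, g • c = c)
    (hc0 : (c : Cls).toMul ∈ classesOf Set.univ (⊥ : IntermediateField ℚ Qb))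
    {u : H2 (Γ ⧸ L.fixingSubgroup) (LevelMod L.fixingSubgroup)}
    (hu : CochainH2.map (auxProj q D L) (auxIncl q D L) (auxIncl_smul q D L) u =
        CochainH2.mk _ _ ⟨_, auxCocycleFun_mem q D L e hc⟩)
    (P : Subgroup (Γ ⧸ L.fixingSubgroup)) (hP : IsPGroup p P) (j : ℤ)
    (hj : j • restriction P u = 0) :
    (orderOf (thetaCls q D hD' ⊥ ⟨(c : Cls).toMul, hc0⟩) : ℤ) ∣ j * P.index := by
  classical
  set π := auxProj q D L with hπdef
  set H := P.comap π with hH
  let π' : H →* P := (π.comp H.subtype).codRestrict P fun g => g.2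
  set x : Z2 (Γ ⧸ (auxLevel q D L).fixingSubgroup) (LevelMod (auxLevel q D L).fixingSubgroup) := ⟨_, auxCocycleFun_mem q D L e hc⟩
  have hincl : ∀ (g : H) (b : LevelMod L.fixingSubgroup),
      auxIncl q D L (π' g • b) = g • auxIncl q D L b := fun g b => auxIncl_smul q D L g b
  have hres : j • restriction H (CochainH2.mk _ _ x) = 0 := by
    have h := congrArg (CochainH2.map π' (auxIncl q D L) hincl) hj
    rw [map_zsmul, map_zero] at h
    rw [← h]
    congr 1
    rw [← hu, restriction, CochainH2.map_map]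
    exact (CochainH2.map_map P.subtype (AddMonoidHom.id _) (CochainH2.restriction_compat P) π'
      (auxIncl q D L) hincl u).symm
  rw [← map_zsmul, ← map_zsmul, restriction, CochainH2.map_mk_eq_zero] at hres
  obtain ⟨b, hb⟩ := hres
  have hb' : ∀ g h : H, g • b h - b (g * h) + b g =
      j • auxCocycleFun q D L e c ((g : Γ ⧸ (auxLevel q D L).fixingSubgroup), (h : Γ ⧸ (auxLevel q D L).fixingSubgroup)) :=
    fun g h => (congrFun hb (g, h)).trans (by
      rw [CochainH2.cochainMap_apply, AddSubgroup.coe_zsmul, Pi.smul_apply]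
      rfl)
  have hzero : ∀ g g' : Γ ⧸ (auxLevel q D L).fixingSubgroup,
      (auxChar q D L g = 1 ∨ auxChar q D L g' = 1) → auxCocycleFun q D L e c (g, g') = 0 := by
    intro g g' h
    show ((_ + _) / N) • c = 0
    rcases h with h | h <;> rw [auxIdx_eq_zero q D L e h] <;>
      simp [Nat.div_eq_of_lt (auxIdx_lt q D L e _)]
  let P2 : Subgroup (Γ ⧸ (auxLevel q D L).fixingSubgroup) := H ⊓ (auxChar q D L).ker
  have hP2 : IsPGroup p P2 := hP.of_injective
    (π'.comp (Subgroup.inclusion inf_le_left)) ((injective_iff_map_eq_one _).2 fun g hg =>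
      Subtype.ext (eq_one_of_proj_char q D L (congrArg Subtype.val hg) g.2.2))
  obtain ⟨hh1, -, -⟩ := h1_h2_levelMod (L := (auxLevel q D L)) hζp hζ' ((le_sup_left : L ≤ (auxLevel q D L)) hζL') P2 hP2
  let i2 : P2 →* H := Subgroup.inclusion inf_le_left
  obtain ⟨a, ha⟩ := hh1 (fun g => b (i2 g)) fun g h => by
    have h' := hb' (i2 g) (i2 h)
    rw [hzero (i2 g : Γ ⧸ (auxLevel q D L).fixingSubgroup) (i2 h : Γ ⧸ (auxLevel q D L).fixingSubgroup) (Or.inl g.2.2), smul_zero,
      sub_add_eq_add_sub, sub_eq_zero] at h'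
    rw [map_mul]
    exact h'.symm
  let b' : H → LevelMod (auxLevel q D L).fixingSubgroup := fun g => b g - (g • a - a)
  have hb'' : ∀ g h : H, g • b' h - b' (g * h) + b' g =
      j • auxCocycleFun q D L e c ((g : Γ ⧸ (auxLevel q D L).fixingSubgroup), (h : Γ ⧸ (auxLevel q D L).fixingSubgroup)) :=
    fun g h => by
      rw [← hb' g h]
      simp only [b', mul_smul, smul_sub]
      abel
  have hb0 : ∀ g : P2, b' (i2 g) = 0 := fun g => sub_eq_zero.2 (ha g)
  obtain ⟨γ, hγ, -, hγi⟩ := exists_gen q D L e hsurj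
  have hπγ : π (γ : Γ ⧸ (auxLevel q D L).fixingSubgroup) = 1 := (QuotientGroup.eq_one_iff γ).2 hγ
  let t : H := ⟨(γ : Γ ⧸ (auxLevel q D L).fixingSubgroup), by
    show π _ ∈ P
    rw [hπγ]; exact one_mem P⟩
  have htpow : ∀ i : ℕ, ((t ^ i : H) : Γ ⧸ (auxLevel q D L).fixingSubgroup) = ((γ ^ i : Γ) : Γ ⧸ (auxLevel q D L).fixingSubgroup) :=
    fun i => (SubmonoidClass.coe_pow t i).trans (QuotientGroup.mk_pow _ γ i).symm
  have hcomm : ∀ g : P2, i2 g * t = t * i2 g := fun g => by
    refine Subtype.ext (mul_inv_eq_one.1 (eq_one_of_proj_char q D L ?_ ?_))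
    · simp only [Subgroup.coe_mul, mul_inv_rev, map_mul, map_inv]
      rw [show π (t : Γ ⧸ (auxLevel q D L).fixingSubgroup) = 1 from hπγ]
      simp
    · simp only [Subgroup.coe_mul, mul_inv_rev, map_mul, map_inv]
      rw [← mul_inv, mul_inv_cancel]
  set y := b' t with hy
  have hyfix : ∀ g : P2, i2 g • y = y := fun g => by
    have h1 := hb'' (i2 g) t
    have h2 := hb'' t (i2 g)
    rw [hzero (i2 g : Γ ⧸ (auxLevel q D L).fixingSubgroup) (t : Γ ⧸ (auxLevel q D L).fixingSubgroup) (Or.inl g.2.2), smul_zero,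
      hb0, add_zero, sub_eq_zero] at h1
    rw [hzero (t : Γ ⧸ (auxLevel q D L).fixingSubgroup) (i2 g : Γ ⧸ (auxLevel q D L).fixingSubgroup) (Or.inr g.2.2), smul_zero,
      hb0, smul_zero, zero_sub, neg_add_eq_zero] at h2
    rw [h1, hcomm, h2]
  -- the telescoping sum
  have hsum : ∑ i ∈ Finset.range N, t ^ i • y = j • c := by
    have hterm : ∀ i ∈ Finset.range N, t ^ i • y - b' (t ^ (i + 1)) + b' (t ^ i) =
        j • ((if i = N - 1 then 1 else 0 : ℕ) • c) := fun i hi => by
      rw [Finset.mem_range] at hi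
      rw [pow_succ, hy, hb'']
      congr 1
      show ((_ + _) / N) • c = _
      congr 1
      rw [htpow, show ((t : H) : Γ ⧸ (auxLevel q D L).fixingSubgroup) = ((γ ^ 1 : Γ) : Γ ⧸ (auxLevel q D L).fixingSubgroup) by
        rw [pow_one], hγi, hγi, Nat.mod_eq_of_lt hi, Nat.mod_eq_of_lt hN1]
      split_ifs with h
      · rw [h, Nat.sub_add_cancel (NeZero.pos N), Nat.div_self (NeZero.pos N)]
      · exact Nat.div_eq_of_lt (by omega)
    have htN : t ^ N = 1 := by
      refine Subtype.ext (eq_one_of_proj_char q D L ?_ ?_)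
      · rw [SubmonoidClass.coe_pow, map_pow, show π (t : Γ ⧸ (auxLevel q D L).fixingSubgroup) = 1 from hπγ, one_pow]
      · refine (auxIdx_inj q D L e (g' := 1) ?_).trans (map_one _)
        rw [htpow, hγi, Nat.mod_self, auxIdx_eq_zero q D L e (map_one _)]
    have h := Finset.sum_congr rfl hterm
    rw [← Finset.smul_sum, ← Finset.sum_smul, Finset.sum_ite_eq' (Finset.range N) (N - 1) fun _ => 1,
      if_pos (Finset.mem_range.2 (Nat.sub_lt (NeZero.pos N) one_pos)), one_nsmul,
      Finset.sum_add_distrib, Finset.sum_sub_distrib] at h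
    have h' : ∑ i ∈ Finset.range N, b' (t ^ (i + 1)) = ∑ i ∈ Finset.range N, b' (t ^ i) := by
      rw [← sub_eq_zero, ← Finset.sum_sub_distrib, Finset.sum_range_sub fun i => b' (t ^ i), htN,
        pow_zero, sub_self]
    rw [h', sub_add_cancel] at h
    exact h
  -- the fields `k` and `kF`
  let V : Subgroup Γ := P.comap (QuotientGroup.mk' L.fixingSubgroup)
  have hLV : L.fixingSubgroup ≤ V := fun σ hσ => by
    show (σ : Γ ⧸ L.fixingSubgroup) ∈ P
    rw [(QuotientGroup.eq_one_iff σ).2 hσ]; exact one_mem P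
  set k := IntermediateField.fixedField V with hk
  have hkfix : k.fixingSubgroup = V := fixingSubgroup_fixedField_of_le hLV
  have := finiteDimensional_fixedField_of_le hLV
  set F := k ⊔ subField q D with hF
  have hFfix : ∀ σ : Γ, σ ∈ F.fixingSubgroup ↔
      (σ : Γ ⧸ L.fixingSubgroup) ∈ P ∧ cyclotomicClass q D σ = 1 := fun σ => by
    rw [hF, IntermediateField.fixingSubgroup_sup, Subgroup.mem_inf, hkfix, fixingSubgroup_subField]
    rfl
  have hFM : F ≤ (auxLevel q D L) := sup_le ((fixedField_le_of_le hLV).trans le_sup_left) le_sup_right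
  have hyF : (y : Cls).toMul ∈ classesOf Set.univ F := mem_classesOf_univ_iff.2 fun σ hσ => by
    obtain ⟨h1, h2⟩ := (hFfix σ).1 hσ
    have h := congrArg (fun z : LevelMod (auxLevel q D L).fixingSubgroup => (z : Cls).toMul)
      (hyfix ⟨(σ : Γ ⧸ (auxLevel q D L).fixingSubgroup), h1, h2⟩)
    refine Eq.trans ?_ h
    exact (congrArg Additive.toMul (Devissage.coe_mk_smul _ σ y)).symm
  have hγk : γ ∈ k.fixingSubgroup := hkfix ▸ hLV hγ
  have hnorm : relNorm k F (y : Cls).toMul = (c : Cls).toMul ^ j := by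
    rw [relNorm_eq_prod_range (N := N) hγk (fun i hi i' hi' h => ?_) (fun h hh => ?_)
      fun σ hσ => mem_classesOf_univ_iff.1 hyF σ hσ, ← toMul_sum_pow_smul q D L γ y]
    · rw [← toMul_zsmul, ← AddSubgroup.coe_zsmul, ← hsum]
      refine congrArg (fun z : LevelMod (auxLevel q D L).fixingSubgroup => (z : Cls).toMul)
        (Finset.sum_congr rfl fun i _ => ?_)
      rw [← htpow]
      rfl
    · have h2 := ((hFfix _).1 h).2
      rw [map_mul, map_inv, inv_mul_eq_one, ← auxChar_mk q D L (γ ^ i), ← auxChar_mk q D L (γ ^ i')] at h2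
      have h3 : auxIdx q D L e ((γ ^ i : Γ) : Γ ⧸ (auxLevel q D L).fixingSubgroup) =
          auxIdx q D L e ((γ ^ i' : Γ) : Γ ⧸ (auxLevel q D L).fixingSubgroup) := by rw [auxIdx, auxIdx, h2]
      rwa [hγi, hγi, Nat.mod_eq_of_lt hi, Nat.mod_eq_of_lt hi'] at h3
    · refine ⟨auxIdx q D L e (h : Γ ⧸ (auxLevel q D L).fixingSubgroup), auxIdx_lt q D L e _, (hFfix _).2 ⟨?_, ?_⟩⟩
      · rw [QuotientGroup.mk_mul, QuotientGroup.mk_inv,
          (QuotientGroup.eq_one_iff _).2 (pow_mem hγ _), inv_one, one_mul]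
        have h' : h ∈ V := hkfix ▸ hh
        exact h'
      · rw [map_mul, map_inv, inv_mul_eq_one]
        show auxChar q D L ((γ ^ auxIdx q D L e (h : Γ ⧸ (auxLevel q D L).fixingSubgroup) : Γ) :
            Γ ⧸ (auxLevel q D L).fixingSubgroup) =
          auxChar q D L (h : Γ ⧸ (auxLevel q D L).fixingSubgroup)
        refine auxIdx_inj q D L e ?_
        rw [hγi, Nat.mod_eq_of_lt (auxIdx_lt q D L e _)]
  have hck : (c : Cls).toMul ∈ classesOf Set.univ k := by
    refine mem_classesOf_univ_iff.2 fun σ _ => mem_classesOf_univ_iff.1 hc0 σ ?_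
    rw [fixingSubgroup_bot_eq_top]; trivial
  have hNk : relNorm k F (y : Cls).toMul ∈ classesOf Set.univ k := hnorm ▸ zpow_mem hck j
  have h1 := thetaCls_relNorm q D hD' (le_sup_left : k ≤ F) (le_sup_right : subField q D ≤ F) hyF hNk
  rw [show (⟨relNorm k F (y : Cls).toMul, hNk⟩ : ↥(classesOf Set.univ k)) =
      ⟨(c : Cls).toMul, hck⟩ ^ j from Subtype.ext (hnorm.trans (SubgroupClass.coe_zpow (⟨(c : Cls).toMul, hck⟩ : ↥(classesOf Set.univ k)) j).symm),
    map_zpow, thetaCls_of_bot q D hD' hc0 hck, hkfix] at h1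
  rw [show V.index = P.index from
    Subgroup.index_comap_of_surjective P (QuotientGroup.mk'_surjective _), ← zpow_natCast,
    ← zpow_mul] at h1
  rw [mul_comm]
  exact orderOf_dvd_iff_zpow_eq_one.2 h1

end Fermat.Agent.ClassField.Idele
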