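import Fermat.Agent.ClassField.Idele.Fundamental.LocalNorm
import Fermat.Agent.ClassField.Idele.Cyclotomic.Auxiliary

/-!
# Local units which are not global norms

For `σ` of order `p` in the decomposition group at `v` of a finite normal `L ∋ ζ_p`, some local
unit fixed by `σ` has a class outside the norms from the classes of `L`.
-/

set_option autoImplicit false
set_option linter.unusedSectionVars false

noncomputable section

open IntermediateField
open scoped Fermat.Agent.ClassField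

namespace Fermat.Agent.ClassField.Idele

open S55 (decGroup locUnits locIdele locHom LUnits toLevel LevelGroup emb0 emb0_locHom)
open Devissage (powSum powSum_apply)
open CyclicNorms (smul_powSum_sub smul_powSum_of_commute powSum_mul powSum_comm)

local notation "Qb" => AlgebraicClosure ℚ
local notation "Γ" => (AlgebraicClosure ℚ ≃ₐ[ℚ] AlgebraicClosure ℚ)

section prelim

variable (q : Nat.Primes) (D : Subgroup (ZMod (q : ℕ))ˣ)
variable (L : IntermediateField ℚ Qb) [FiniteDimensional ℚ L] [Normal ℚ L]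

lemma eq_of_proj_char {x y : LevelGroup (auxLevel q D L)}
    (h1 : auxProj q D L x = auxProj q D L y) (h2 : auxChar q D L x = auxChar q D L y) : x = y :=
  inv_mul_eq_one.1 (eq_one_of_proj_char q D L
    (by rw [map_mul, map_inv, h1, inv_mul_cancel]) (by rw [map_mul, map_inv, h2, inv_mul_cancel]))

lemma commute_of_proj_eq_one {x : LevelGroup (auxLevel q D L)} (h : auxProj q D L x = 1)
    (g : LevelGroup (auxLevel q D L)) : Commute x g :=
  eq_of_proj_char q D L (by rw [map_mul, map_mul, h, one_mul, mul_one])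
    (by rw [map_mul, map_mul]; exact mul_comm (auxChar q D L x) (auxChar q D L g))

lemma auxIncl_powSum (g : LevelGroup (auxLevel q D L)) (n : ℕ) (c : LevelMod L.fixingSubgroup) :
    auxIncl q D L (powSum (auxProj q D L g) n c) = powSum g n (auxIncl q D L c) := by
  rw [powSum_apply, powSum_apply, map_sum]
  refine Finset.sum_congr rfl fun i _ => ?_
  rw [← map_pow, auxIncl_smul]

end prelim

/-- A power of a prime as a local unit. -/
def ratUnit (L : IntermediateField ℚ Qb) (v : Nat.Primes) [Normal ℚ L] (t : ℕ) : locUnits L v :=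
  ⟨Additive.ofMul ((Units.mk0 ((v : ℕ) : PadicAlgCl (v : ℕ)) (Nat.cast_ne_zero.2 v.2.ne_zero)) ^ t),
    fun τ _ => Additive.toMul.injective (Units.ext (by
      show τ _ = _
      simp only [toMul_ofMul, Units.val_pow_eq_pow_val, Units.val_mk0, map_pow, map_natCast]))⟩

variable {p : ℕ} [Fact p.Prime] (hp : p ≠ 2)
variable (L : IntermediateField ℚ Qb) [FiniteDimensional ℚ L] [Normal ℚ L] (v : Nat.Primes)

lemma smul_ratUnit (t : ℕ) (g : decGroup L v) : g • ratUnit L v t = ratUnit L v t := by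
  obtain ⟨τ, hτ⟩ := g.2
  refine Subtype.ext (Additive.toMul.injective (Units.ext ?_))
  rw [S55.coe_smul_locUnits hτ]
  show τ _ = _
  simp only [ratUnit, toMul_ofMul, Units.val_pow_eq_pow_val, Units.val_mk0, map_pow, map_natCast]

lemma norm_ratUnit_pow (t n : ℕ) :
    ‖((((ratUnit L v t : locUnits L v) : LUnits v).toMul : (PadicAlgCl (v : ℕ))ˣ) :
      PadicAlgCl (v : ℕ))‖ ^ n = ((v : ℕ) : ℝ) ^ (-((t * n : ℕ) : ℤ)) := by
  simp only [ratUnit, toMul_ofMul, Units.val_pow_eq_pow_val, Units.val_mk0]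
  rw [← map_natCast (algebraMap ℚ_[(v : ℕ)] (PadicAlgCl (v : ℕ))) (v : ℕ), norm_pow,
    norm_algebraMap', Padic.norm_p, inv_pow, inv_pow, ← pow_mul, zpow_neg, zpow_natCast]

variable {ζ : Qb} (hζ : IsPrimitiveRoot ζ p) (hζL : ζ ∈ L)

set_option maxHeartbeats 4000000 in
include hp hζ hζL in
/-- **A local unit which is not a norm of a global class.** -/
theorem exists_locCls_not_norm (σ : decGroup L v) (hσ : orderOf σ = p) :
    ∃ y : locUnits L v, σ • y = y ∧
      ∀ c : LevelMod L.fixingSubgroup, powSum (σ : LevelGroup L) p c ≠ locCls L v y := by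
  classical
  have hp' := (Fact.out : p.Prime)
  set cD := Nat.card (decGroup L v) with hcD
  obtain ⟨q, D, s, hD, hindex, hns, hcyc, hvq', hsurj, hcop, hordv⟩ :=
    exists_auxiliary (p := p) hp L.fixingSubgroup cD (a := (v : ℕ)) v.2.two_le
  have hvq : v ≠ q := fun h => absurd hvq' (by rw [h]; exact lt_irrefl _)
  have : NeZero (p ^ s) := ⟨pow_ne_zero s hp'.ne_zero⟩
  have hcardA : Nat.card ((ZMod (q : ℕ))ˣ ⧸ D) = p ^ s := hindex
  let e : (ZMod (q : ℕ))ˣ ⧸ D ≃* Multiplicative (ZMod (p ^ s)) :=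
    mulEquivOfCyclicCardEq (by rw [hcardA, Nat.card_congr Multiplicative.toAdd, Nat.card_zmod])
  set N := p ^ s with hNdef
  set M' := auxLevel q D L
  obtain ⟨γ, hγ, -, hγi⟩ := exists_gen q D L e hsurj
  set g₀ : LevelGroup M' := toLevel M' γ with hg₀
  have hπg₀ : auxProj q D L g₀ = 1 := (QuotientGroup.eq_one_iff γ).2 hγ
  have hidx : ∀ i : ℕ, auxIdx q D L e (g₀ ^ i) = i % N := fun i => by
    rw [hg₀, ← map_pow]; exact hγi i
  have hgen' : ∀ x, auxProj q D L x = 1 → x = g₀ ^ auxIdx q D L e x := fun x hx =>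
    eq_of_proj_char q D L (by rw [map_pow, hπg₀, one_pow, hx]) (auxIdx_inj q D L e
      (by rw [hidx, Nat.mod_eq_of_lt (auxIdx_lt q D L e x)]))
  have hgen : ∀ x, auxProj q D L x = 1 → ∃ i : ℕ, x = toLevel M' (γ ^ i) := fun x hx =>
    ⟨_, by rw [map_pow]; exact hgen' x hx⟩
  have hN0 : g₀ ^ N = 1 := by
    rw [hgen' (g₀ ^ N) (by rw [map_pow, hπg₀, one_pow]), hidx, Nat.mod_self, pow_zero]
  have hordg₀ : orderOf g₀ = N := by
    refine (orderOf_eq_iff (NeZero.pos N)).2 ⟨hN0, fun i hi h0 h => ?_⟩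
    have h' := hidx i
    rw [h, auxIdx_eq_zero q D L e (map_one _), Nat.mod_eq_of_lt hi] at h'
    omega
  have hex : ∃ j : ℕ, 0 < j ∧ g₀ ^ j ∈ decGroup M' v :=
    ⟨N, NeZero.pos N, by rw [hN0]; exact one_mem _⟩
  set m := Nat.find hex
  obtain ⟨hm0, hmmem⟩ := Nat.find_spec hex
  have hm : ∀ i : ℕ, toLevel M' (γ ^ i) ∈ decGroup M' v ↔ m ∣ i := fun i => by
    rw [map_pow, ← hg₀]
    constructor
    · intro hi
      by_contra hmi
      refine Nat.find_min hex (Nat.mod_lt i hm0) ⟨Nat.pos_of_ne_zero fun h0 =>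
        hmi (Nat.dvd_of_mod_eq_zero h0), ?_⟩
      have h : g₀ ^ i = (g₀ ^ m) ^ (i / m) * g₀ ^ (i % m) := by
        rw [← pow_mul, ← pow_add, Nat.div_add_mod]
      rw [h] at hi
      exact (Subgroup.mul_mem_cancel_left _ (pow_mem hmmem _)).1 hi
    · rintro ⟨j, rfl⟩
      rw [pow_mul]; exact pow_mem hmmem j
  have hmN : m ∣ N := (hm N).1 (by rw [map_pow, ← hg₀, hN0]; exact one_mem _)
  set κ : decGroup M' v := ⟨g₀ ^ m, hmmem⟩ with hκdef
  have hπκ : auxProj q D L (κ : LevelGroup M') = 1 := by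
    rw [hκdef, map_pow, hπg₀, one_pow]
  have hordκ : m * orderOf κ = N := by
    rw [← Subgroup.orderOf_coe, hκdef, orderOf_pow, hordg₀, Nat.gcd_eq_right hmN,
      Nat.mul_div_cancel' hmN]
  have hkerκ : ∀ g : decGroup M' v, auxProj q D L (g : LevelGroup M') = 1 →
      g ∈ Subgroup.zpowers κ := fun g hg => by
    obtain ⟨i, hi⟩ := hgen _ hg
    obtain ⟨l, rfl⟩ := (hm i).1 (hi ▸ g.2)
    refine ⟨(l : ℤ), Subtype.ext ?_⟩
    show ((κ ^ (l : ℤ) : decGroup M' v) : LevelGroup M') = g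
    rw [zpow_natCast, SubmonoidClass.coe_pow, hκdef, hi, map_pow, ← hg₀, pow_mul]
  have hpκ : IsPGroup p (Subgroup.zpowers κ) := by
    obtain ⟨i, -, hi⟩ := (Nat.dvd_prime_pow hp').1
      (Dvd.intro_left m hordκ : orderOf κ ∣ p ^ s)
    exact IsPGroup.of_card (n := i) ((Nat.card_zpowers κ).trans hi)
  -- a lift of `σ`
  obtain ⟨τ, hτ⟩ := σ.2
  set σ₁ : decGroup M' v := ⟨toLevel M' (locHom v τ), locHom_mem_decGroup M' v τ⟩ with hσ₁
  have hπσ₁ : auxProj q D L (σ₁ : LevelGroup M') = (σ : LevelGroup L) := hτ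
  set i₁ := auxIdx q D L e (σ₁ : LevelGroup M')
  set σ₀ : LevelGroup M' := (g₀ ^ i₁)⁻¹ * σ₁ with hσ₀
  have hπσ₀ : auxProj q D L σ₀ = (σ : LevelGroup L) := by
    rw [hσ₀, map_mul, map_inv, map_pow, hπg₀, one_pow, inv_one, one_mul, hπσ₁]
  have hχσ₀ : auxChar q D L σ₀ = 1 := by
    rw [hσ₀, map_mul, map_inv, inv_mul_eq_one]
    exact auxIdx_inj q D L e (by rw [hidx, Nat.mod_eq_of_lt (auxIdx_lt q D L e _)])
  have hordσ : orderOf (σ : LevelGroup L) = p := by rw [Subgroup.orderOf_coe, hσ]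
  have hσ₀p : σ₀ ^ p = 1 := eq_one_of_proj_char q D L
    (by rw [map_pow, hπσ₀, ← hordσ, pow_orderOf_eq_one]) (by rw [map_pow, hχσ₀, one_pow])
  have hσ₀ord : orderOf σ₀ = p := orderOf_eq_prime hσ₀p fun h => by
    rw [h, map_one] at hπσ₀
    rw [← hπσ₀, orderOf_one] at hordσ
    exact hp'.ne_one hordσ.symm
  have hcg : ∀ x, Commute g₀ x := commute_of_proj_eq_one q D L hπg₀
  have hσ₁p : (σ₁ : LevelGroup M') ^ p = g₀ ^ (p * i₁) := by
    have h : (σ₁ : LevelGroup M') = g₀ ^ i₁ * σ₀ := by rw [hσ₀, mul_inv_cancel_left]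
    rw [h, ((hcg σ₀).pow_left i₁).mul_pow, hσ₀p, mul_one, ← pow_mul, mul_comm i₁]
  obtain ⟨ex, hex'⟩ := (hm (p * i₁)).1 (by
    rw [map_pow, ← hg₀, ← hσ₁p]; exact pow_mem σ₁.2 p)
  have hσ₁κ : σ₁ ^ p = κ ^ ex := Subtype.ext (by
    rw [SubmonoidClass.coe_pow, SubmonoidClass.coe_pow, hσ₁p, hκdef, ← pow_mul, hex'])
  have hcomm : Commute κ σ₁ := Subtype.ext ((hcg (σ₁ : LevelGroup M')).pow_left m)
  -- the exponent
  set Q := Subgroup.zpowers (σ : LevelGroup L) with hQdef
  have hQ : Q ≤ decGroup L v := Subgroup.zpowers_le.2 σ.2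
  have hQcard : Nat.card Q = p := (Nat.card_zpowers _).trans hordσ
  set o' := orbitCard (emb0 v) (decField L Q)
  have ho' : o' * p = cD := by rw [← hQcard]; exact orbitCard_mul_card L v hQ
  have hcD0 : 0 < cD := Nat.card_pos
  have ho'0 : 0 < o' := Nat.pos_of_ne_zero fun h => by rw [h, zero_mul] at ho'; omega
  set x := primeClass q D v ^ o' with hx
  have hx1 : x ≠ 1 := fun h => by
    have h1 : p ^ cD ∣ o' := hordv.trans (orderOf_dvd_of_pow_eq_one (by
      rw [← h, hx, primeClass, dif_pos hcop]))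
    have h2 := Nat.le_of_dvd ho'0 h1
    have h3 := Nat.lt_pow_self (n := cD) hp'.one_lt
    have h4 : o' ≤ cD := by rw [← ho']; exact Nat.le_mul_of_pos_right _ hp'.pos
    omega
  have hpr : p ∣ orderOf x := by
    obtain ⟨i, -, hi⟩ := (Nat.dvd_prime_pow hp').1
      ((orderOf_dvd_natCard x).trans hcardA.dvd : orderOf x ∣ p ^ s)
    rcases Nat.eq_zero_or_pos i with h0 | h0
    · exact absurd (orderOf_eq_one_iff.1 (by rw [hi, h0, pow_zero])) hx1
    · exact hi ▸ dvd_pow_self p h0.ne'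
  set t := orderOf x / p
  have ht : x ^ (t * p) = 1 := by rw [Nat.div_mul_cancel hpr, pow_orderOf_eq_one]
  have ht' : x ^ t ≠ 1 := pow_ne_one_of_lt_orderOf
    (Nat.div_pos (Nat.le_of_dvd (orderOf_pos x) hpr) hp'.pos).ne'
    (Nat.div_lt_self (orderOf_pos x) hp'.one_lt)
  set y := ratUnit L v t
  obtain ⟨b, hb⟩ := exists_norm_eq_of_symbol q D hD L v hvq κ hπκ hkerκ hpκ y
    (norm_ratUnit_pow L v t cD) (by
      rw [zpow_natCast, ← ho', ← mul_assoc, mul_comm t o', mul_assoc, pow_mul, ← hx, ht])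
  -- Hilbert 90
  have hσ₁y : σ₁ • locRes q D L v y = locRes q D L v y := by
    rw [smul_locRes q D L v σ₁ σ hπσ₁, smul_ratUnit]
  obtain ⟨d, hd⟩ := CyclicNorms.exists_smul_sub (A := locUnits M' v) (isOfFinOrder_of_finite κ)
    (CyclicNorms.h1Vanishes_of_isPClassModule (p := p)
      (S55.exists_isPClassModule_locUnits p M' v).choose_spec hpκ)
    (E := σ₁ • b - b) (by rw [map_sub, ← smul_powSum_of_commute hcomm, hb, hσ₁y, sub_self])
  set ys := powSum σ₁ p d - powSum κ ex b with hys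
  have hys1 : κ • ys = ys := by
    rw [← sub_eq_zero, hys, smul_sub, smul_powSum_of_commute hcomm.symm,
      show powSum σ₁ p (κ • d) - κ • powSum κ ex b - (powSum σ₁ p d - powSum κ ex b) =
        (powSum σ₁ p (κ • d) - powSum σ₁ p d) - (κ • powSum κ ex b - powSum κ ex b) by abel,
      ← map_sub, ← hd, map_sub, ← smul_powSum_of_commute (Commute.refl σ₁), smul_powSum_sub,
      smul_powSum_sub, hσ₁κ, sub_self]
  have hys2 : σ₁ • ys = ys := by
    rw [← sub_eq_zero, hys, smul_sub, smul_powSum_of_commute hcomm,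
      show σ₁ • powSum σ₁ p d - powSum κ ex (σ₁ • b) - (powSum σ₁ p d - powSum κ ex b) =
        (σ₁ • powSum σ₁ p d - powSum σ₁ p d) - (powSum κ ex (σ₁ • b) - powSum κ ex b) by abel,
      ← map_sub (powSum (A := locUnits M' v) κ ex), hd, map_sub, ← smul_powSum_of_commute (Commute.refl κ),
      smul_powSum_sub, smul_powSum_sub, hσ₁κ, sub_self]
  obtain ⟨y', hy'⟩ := exists_locRes_eq q D L v (a := ys) fun g hg => by
    have h : Subgroup.zpowers κ ≤ MulAction.stabilizer (decGroup M' v) ys :=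
      Subgroup.zpowers_le.2 hys1
    exact h (hkerκ g hg)
  refine ⟨y', ?_, fun c hc => ?_⟩
  · have h := smul_locRes q D L v σ₁ σ hπσ₁ y'
    rw [hy', hys2, ← hy'] at h
    exact Subtype.ext (congrArg Subtype.val h).symm
  -- the global contradiction
  set B := locCls M' v b with hB
  set X := locCls M' v d with hX
  set C := auxIncl q D L c with hC
  set Dd := powSum g₀ m X - C with hDd
  have hC0 : g₀ • C = C := by rw [hC, ← auxIncl_smul, hπg₀, one_smul]
  have hT : ∀ a : locUnits L v,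
      auxIncl q D L (locCls L v a) = powSum g₀ m (locCls M' v (locRes q D L v a)) :=
    auxIncl_locCls q D L v hγ hgen hm0 hm
  have h1 : (σ₁ : LevelGroup M') • B - B = g₀ • Dd - Dd := by
    rw [hB, ← locCls_smul, ← map_sub, hd, map_sub, locCls_smul, hDd, smul_sub, hC0,
      sub_sub_sub_cancel_right, smul_powSum_sub]
  have h2 : powSum (σ₁ : LevelGroup M') p Dd = powSum g₀ (p * i₁) B := by
    rw [hDd, map_sub, hC, ← auxIncl_powSum, hπσ₁, hc, hT, hy', hys, map_sub, locCls_powSum,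
      locCls_powSum, map_sub, powSum_comm (hcg _), hex', powSum_mul]
    rw [sub_sub_cancel]
  have hH : ∀ E' : LevelMod M'.fixingSubgroup, powSum σ₀ p E' = 0 →
      ∃ W, E' = σ₀ • W - W := fun E' hE' => by
    obtain ⟨hh1, -, -⟩ := h1_h2_levelMod (L := M') hp hζ ((le_sup_left : L ≤ M') hζL)
      (Subgroup.zpowers σ₀) (IsPGroup.of_card (n := 1) (by
        rw [Nat.card_zpowers, hσ₀ord, pow_one]))
    exact CyclicNorms.exists_smul_sub (isOfFinOrder_of_finite σ₀) hh1 (by rw [hσ₀ord]; exact hE')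
  obtain ⟨Z, hZ1, hZ2⟩ := CyclicNorms.exists_fixed_preimage (hcg (σ₁ : LevelGroup M')) i₁ p N hN0
    hH h1 h2
  have hNB : powSum g₀ N B = auxIncl q D L (locCls L v y) := by
    rw [hT, ← hb, locCls_powSum, ← hordκ, powSum_mul, hB]
  rw [hNB] at hZ2
  set k := decField L Q
  set F := k ⊔ subField q D with hF
  have hFfix : ∀ g : Γ, g ∈ F.fixingSubgroup ↔
      toLevel L g ∈ Q ∧ cyclotomicClass q D g = 1 := fun g => by
    rw [hF, IntermediateField.fixingSubgroup_sup, Subgroup.mem_inf, mem_fixingSubgroup_decField,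
      fixingSubgroup_subField]
    rfl
  have hZF : (Z : Cls).toMul ∈ classesOf Set.univ F := mem_classesOf_univ_iff.2 fun g hg => by
    obtain ⟨⟨l, hl⟩, hg2⟩ := (hFfix g).1 hg
    have heq : toLevel M' g = σ₀ ^ l := eq_of_proj_char q D L
      (by rw [auxProj_toLevel, map_zpow, hπσ₀]; exact hl.symm)
      (by rw [map_zpow, hχσ₀, one_zpow]; exact hg2)
    have h : Subgroup.zpowers σ₀ ≤ MulAction.stabilizer (LevelGroup M') Z :=
      Subgroup.zpowers_le.2 hZ1
    have hgZ : toLevel M' g • Z = Z := h ⟨l, heq.symm⟩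
    have h' := congrArg (fun z : LevelMod M'.fixingSubgroup => (z : Cls).toMul) hgZ
    refine Eq.trans ?_ h'
    exact (congrArg Additive.toMul (Devissage.coe_mk_smul _ g Z)).symm
  have hγk : γ ∈ k.fixingSubgroup := (mem_fixingSubgroup_decField L Q).2 (by
    rw [show toLevel L γ = 1 from (QuotientGroup.eq_one_iff γ).2 hγ]; exact one_mem _)
  have hnorm : relNorm k F (Z : Cls).toMul = ((locCls L v y : LevelMod L.fixingSubgroup) : Cls).toMul := by
    rw [relNorm_eq_prod_range (N := N) hγk (fun i hi j hj h => ?_) (fun h hh => ?_)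
      fun g hg => mem_classesOf_univ_iff.1 hZF g hg, ← toMul_powSum q D L γ N Z]
    · rw [show (γ : Γ ⧸ M'.fixingSubgroup) = g₀ from rfl, hZ2]
      rfl
    · have h2 := ((hFfix _).1 h).2
      rw [map_mul, map_inv, inv_mul_eq_one] at h2
      have h3 : auxIdx q D L e (g₀ ^ i) = auxIdx q D L e (g₀ ^ j) := by
        rw [hg₀, ← map_pow, ← map_pow, auxIdx, auxIdx]
        exact congrArg (fun z => (Multiplicative.toAdd (e z)).val) h2
      rwa [hidx, hidx, Nat.mod_eq_of_lt hi, Nat.mod_eq_of_lt hj] at h3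
    · refine ⟨auxIdx q D L e (toLevel M' h), auxIdx_lt q D L e _, (hFfix _).2 ⟨?_, ?_⟩⟩
      · rw [map_mul, map_inv, show toLevel L (γ ^ _) = 1 from
          (QuotientGroup.eq_one_iff _).2 (pow_mem hγ _), inv_one, one_mul]
        exact (mem_fixingSubgroup_decField L Q).1 hh
      · rw [map_mul, map_inv, inv_mul_eq_one]
        refine auxIdx_inj q D L e (g := toLevel M' (γ ^ auxIdx q D L e (toLevel M' h)))
          (g' := toLevel M' h) ?_
        rw [map_pow, ← hg₀, hidx, Nat.mod_eq_of_lt (auxIdx_lt q D L e _)]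
  have hfixy : ∀ g : decGroup L v, (g : LevelGroup L) ∈ Q → g • y = y := fun g _ =>
    smul_ratUnit L v t g
  have hθ := thetaCls_locCls L v hQ q D hD hvq hfixy (norm_ratUnit_pow L v t o')
  rw [zpow_natCast, mul_comm t o', pow_mul, ← hx] at hθ
  refine ht' (hθ.symm.trans ?_)
  have hmem := locCls_mem_classesOf L v hQ hfixy
  have h := thetaCls_relNorm q D hD (le_sup_left : k ≤ F) (le_sup_right : subField q D ≤ F) hZF
    (hnorm ▸ hmem)
  refine Eq.trans ?_ h
  exact congrArg _ (Subtype.ext hnorm.symm)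

end Fermat.Agent.ClassField.Idele
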