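import Fermat.Agent.ClassField.Idele.Fundamental.LocalTower

/-!
# Norms from the local field of `LF` down to that of `L`

The local units fixed by a generator `κ` of the local Galois group over `L` are, modulo norms,
generated by one element; hence an element whose symbol at the fixed field of `κ` is trivial is a
norm, the symbol of a uniformizer having order `orderOf κ`.
-/

set_option autoImplicit false
set_option linter.unusedSectionVars false

noncomputable section

open IntermediateField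
open scoped Fermat.Agent.ClassField

namespace Fermat.Agent.ClassField.CyclicNorms

open Devissage (powSum powSum_apply H1Vanishes)

variable {G A : Type*} [Group G] [AddCommGroup A] [DistribMulAction G A]
variable {p : ℕ} {u : G × G → A}

/-- Class modules have no `H¹` on `p`-subgroups. -/
theorem h1Vanishes_of_isPClassModule (hu : S55.IsPClassModule p G A u) {P : Subgroup G}
    (hP : IsPGroup p P) : H1Vanishes P A := fun c hc => by
  obtain ⟨x, hx⟩ := hu.h1 P hP c (funext fun g => by
    show (g.1 : P) • c g.2 - c (g.1 * g.2) + c g.1 = 0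
    rw [hc]; abel)
  exact ⟨x, fun g => (congrFun hx g).symm⟩

/-- In a class module, invariants of a cyclic `p`-subgroup are, modulo norms, the multiples of
the invariant of the class. -/
theorem exists_eq_smul_sum_add (hu : S55.IsPClassModule p G A u) {κ : G}
    (hfin : IsOfFinOrder κ) (hP : IsPGroup p (Subgroup.zpowers κ)) (h1 : 1 < orderOf κ) {a : A}
    (ha : κ • a = a) :
    ∃ (n : ℤ) (b : A), a = n • (∑ i ∈ Finset.range (orderOf κ), u (κ ^ i, κ)) +
      powSum κ (orderOf κ) b := by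
  set P := Subgroup.zpowers κ
  set τ : P := ⟨κ, Subgroup.mem_zpowers κ⟩
  have hord : orderOf τ = orderOf κ := (orderOf_injective P.subtype Subtype.val_injective τ).symm
  have hτfin : IsOfFinOrder τ := orderOf_pos_iff.1 (hord ▸ hfin.orderOf_pos)
  have hgen : ∀ g : P, g ∈ Submonoid.powers τ := fun g => by
    obtain ⟨i, hi⟩ := Submonoid.mem_powers_iff _ _ |>.1 (hfin.mem_powers_iff_mem_zpowers.2 g.2)
    exact ⟨i, Subtype.ext ((SubmonoidClass.coe_pow τ i).trans hi)⟩
  set uP : CochainH2.Z2 P A := ⟨fun x => u ((x.1 : G), (x.2 : G)),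
    S55.mem_Z2_iff_cocycle.2 fun g h j => hu.cocycle g h j⟩
  set c : CochainH2.Z2 P A := ⟨CyclicH2.cocycle τ a, CyclicH2.cocycle_mem_Z2 τ hgen hτfin ha⟩
  obtain ⟨n, b, hb⟩ := hu.h2_gen P hP c (S55.mem_Z2_iff_cocycle.1 c.2)
  have hc : c = n • uP + ⟨CochainH2.d1 P A b, CochainH2.d1_mem_Z2 b⟩ := by
    refine Subtype.ext ?_
    rw [hb]
    rfl
  have hinv : CyclicH2.inv τ c = a := by
    have h := CyclicH2.sum_cocycle_pow τ hτfin a 1 (orderOf τ)
    simp only [one_mul, pow_one] at h
    rw [CyclicH2.inv_apply]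
    refine h.trans ?_
    rw [Nat.mod_eq_of_lt (hord ▸ h1), one_mul, Nat.div_self hτfin.orderOf_pos, one_nsmul]
  refine ⟨n, b τ, ?_⟩
  conv_lhs => rw [← hinv, hc, map_add, map_zsmul, CyclicH2.inv_d1, CyclicH2.normSum_apply,
    CyclicH2.inv_apply, hord]
  rfl

/-- In a class module, invariants of a cyclic `p`-subgroup are generated modulo norms by one
element. -/
theorem exists_generator_mod_norms (hu : S55.IsPClassModule p G A u) {κ : G}
    (hfin : IsOfFinOrder κ) (hP : IsPGroup p (Subgroup.zpowers κ)) :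
    ∃ α : A, κ • α = α ∧ ∀ a : A, κ • a = a →
      ∃ (n : ℤ) (b : A), a = n • α + powSum κ (orderOf κ) b := by
  rcases eq_or_lt_of_le (Nat.one_le_iff_ne_zero.2 hfin.orderOf_pos.ne') with h1 | h1
  · exact ⟨0, smul_zero κ, fun a _ => ⟨0, a, by rw [← h1, powSum_one, zero_smul, zero_add]⟩⟩
  exact ⟨_, CyclicH2.smul_inv κ ⟨u, S55.mem_Z2_iff_cocycle.2 hu.cocycle⟩,
    fun a ha => exists_eq_smul_sum_add hu hfin hP h1 ha⟩

/-- An invariant element killed by a map which is trivial on norms is a norm, if some value of the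
map has order divisible by `orderOf κ`. -/
theorem exists_powSum_eq {κ : G} {α : A} (hα : κ • α = α)
    (hgen : ∀ a : A, κ • a = a → ∃ (n : ℤ) (b : A), a = n • α + powSum κ (orderOf κ) b)
    {A' : Type*} [AddCommGroup A'] (ψ : CyclicH2.fixed A κ →+ A')
    (hψ : ∀ (b : A) (h : κ • powSum κ (orderOf κ) b = powSum κ (orderOf κ) b), ψ ⟨_, h⟩ = 0)
    {a₁ : CyclicH2.fixed A κ} (ha₁ : orderOf κ ∣ addOrderOf (ψ a₁)) {y : CyclicH2.fixed A κ}
    (hy : ψ y = 0) : ∃ b : A, powSum κ (orderOf κ) b = y := by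
  have key : ∀ a : CyclicH2.fixed A κ, ∃ (n : ℤ) (b : A),
      (a : A) = n • α + powSum κ (orderOf κ) b ∧ ψ a = n • ψ ⟨α, hα⟩ := fun a => by
    obtain ⟨n, b, hb⟩ := hgen a a.2
    have hN : κ • powSum κ (orderOf κ) b = powSum κ (orderOf κ) b := by
      rw [← sub_eq_zero, smul_powSum_sub, pow_orderOf_eq_one, one_smul, sub_self]
    refine ⟨n, b, hb, ?_⟩
    rw [show a = n • (⟨α, hα⟩ : CyclicH2.fixed A κ) + ⟨_, hN⟩ from Subtype.ext hb, map_add, hψ,
      add_zero, map_zsmul]
  obtain ⟨n₁, b₁, -, h₁⟩ := key a₁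
  have hdiv : orderOf κ ∣ addOrderOf (ψ ⟨α, hα⟩) := ha₁.trans (by
    rw [h₁]; exact addOrderOf_dvd_of_mem_zmultiples ⟨n₁, rfl⟩)
  obtain ⟨n, b, hb, hn⟩ := key y
  rw [hy, eq_comm, ← addOrderOf_dvd_iff_zsmul_eq_zero] at hn
  obtain ⟨k, hk⟩ := (Int.natCast_dvd_natCast.2 hdiv).trans hn
  refine ⟨k • α + b, ?_⟩
  rw [map_add, map_zsmul, powSum_of_smul_eq hα, hb, hk, mul_comm (orderOf κ : ℤ), mul_smul,
    natCast_zsmul]

end Fermat.Agent.ClassField.CyclicNorms

namespace Fermat.Agent.ClassField.Idele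

open S55 (decGroup locUnits locIdele locHom LUnits toLevel LevelGroup emb0 emb0_locHom)
open Devissage (powSum powSum_apply)

local notation "Qb" => AlgebraicClosure ℚ
local notation "Γ" => (AlgebraicClosure ℚ ≃ₐ[ℚ] AlgebraicClosure ℚ)

lemma locCls_powSum (M : IntermediateField ℚ Qb) [Normal ℚ M] [FiniteDimensional ℚ M]
    (v : Nat.Primes) (g : decGroup M v) (n : ℕ) (a : locUnits M v) :
    locCls M v (powSum g n a) = powSum (g : LevelGroup M) n (locCls M v a) := by
  rw [powSum_apply, powSum_apply, map_sum]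
  refine Finset.sum_congr rfl fun i _ => ?_
  rw [locCls_smul, SubmonoidClass.coe_pow]

variable {p : ℕ} [Fact p.Prime]
variable (q : Nat.Primes) (D : Subgroup (ZMod (q : ℕ))ˣ) (hD : (-1 : (ZMod (q : ℕ))ˣ) ∈ D)
variable (L : IntermediateField ℚ Qb) [FiniteDimensional ℚ L] [Normal ℚ L] (v : Nat.Primes)

set_option maxHeartbeats 2000000 in
include hD in
/-- **The local norm criterion.** -/
theorem exists_norm_eq_of_symbol (hvq : v ≠ q) (κ : decGroup (auxLevel q D L) v)
    (hκ : auxProj q D L (κ : LevelGroup (auxLevel q D L)) = 1)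
    (hkerκ : ∀ g : decGroup (auxLevel q D L) v,
      auxProj q D L (g : LevelGroup (auxLevel q D L)) = 1 → g ∈ Subgroup.zpowers κ)
    (hpκ : IsPGroup p (Subgroup.zpowers κ)) (y : locUnits L v) {w : ℤ}
    (hyw : ‖(((y : LUnits v).toMul : (PadicAlgCl (v : ℕ))ˣ) : PadicAlgCl (v : ℕ))‖ ^
      Nat.card (decGroup L v) = ((v : ℕ) : ℝ) ^ (-w))
    (hw : primeClass q D v ^ w = 1) :
    ∃ b : locUnits (auxLevel q D L) v, powSum κ (orderOf κ) b = locRes q D L v y := by
  classical
  set M' := auxLevel q D L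
  obtain ⟨uM, huM⟩ := S55.exists_isPClassModule_locUnits p M' v
  have hκfin : IsOfFinOrder κ := isOfFinOrder_of_finite κ
  obtain ⟨α, hα, hgen⟩ := CyclicNorms.exists_generator_mod_norms huM hκfin hpκ
  set W : Subgroup (LevelGroup M') := Subgroup.zpowers (κ : LevelGroup M')
  have hW : W ≤ decGroup M' v := Subgroup.zpowers_le.2 κ.2
  set k := decField M' W
  have hfix : ∀ a : CyclicH2.fixed (locUnits M' v) κ, ∀ g : decGroup M' v,
      (g : LevelGroup M') ∈ W → g • (a : locUnits M' v) = a := fun a g hg => by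
    obtain ⟨j, hj⟩ := hg
    have hgκ : κ ^ j = g := Subtype.ext ((SubgroupClass.coe_zpow κ j).trans hj)
    have h : Subgroup.zpowers κ ≤ MulAction.stabilizer (decGroup M' v) (a : locUnits M' v) :=
      Subgroup.zpowers_le.2 a.2
    exact h ⟨j, hgκ⟩
  let ψ : CyclicH2.fixed (locUnits M' v) κ →+ Additive ((ZMod (q : ℕ))ˣ ⧸ D) :=
    AddMonoidHom.mk' (fun a => Additive.ofMul
        (thetaCls q D hD k ⟨_, locCls_mem_classesOf M' v hW (hfix a)⟩)) fun a b => by
      rw [← ofMul_mul, ← map_mul]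
      congr 2
      exact Subtype.ext (congrArg (fun z : LevelMod M'.fixingSubgroup => (z : Cls).toMul)
        (map_add (locCls M' v) (a : locUnits M' v) b))
  have hψval : ∀ (a : CyclicH2.fixed (locUnits M' v) κ) (w : ℤ),
      ‖((((a : locUnits M' v) : LUnits v).toMul : (PadicAlgCl (v : ℕ))ˣ) : PadicAlgCl (v : ℕ))‖ ^
        orbitCard (emb0 v) k = ((v : ℕ) : ℝ) ^ (-w) →
      ψ a = Additive.ofMul (primeClass q D v ^ w) := fun a w h =>
    congrArg Additive.ofMul (thetaCls_locCls M' v hW q D hD hvq (hfix a) h)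
  -- cardinality
  have horb : orbitCard (emb0 v) k = Nat.card (decGroup L v) := by
    have h := orbitCard_mul_card M' v hW
    let πd : decGroup M' v →* decGroup L v :=
      ((auxProj q D L).comp (decGroup M' v).subtype).codRestrict _ fun g =>
        auxProj_mem_decGroup q D L v g.2
    have hπd : Function.Surjective πd := by
      rintro ⟨_, τ, rfl⟩
      exact ⟨⟨_, locHom_mem_decGroup M' v τ⟩, Subtype.ext rfl⟩
    have hker : πd.ker = Subgroup.zpowers κ := le_antisymm
      (fun g hg => hkerκ g (congrArg Subtype.val (MonoidHom.mem_ker.1 hg)))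
      (Subgroup.zpowers_le.2 (MonoidHom.mem_ker.2 (Subtype.ext hκ)))
    have hcard := Subgroup.card_mul_index πd.ker
    rw [Subgroup.index_ker, MonoidHom.range_eq_top.2 hπd, Subgroup.card_top, hker,
      Nat.card_zpowers] at hcard
    rw [Nat.card_zpowers, Subgroup.orderOf_coe, ← hcard, mul_comm] at h
    exact Nat.eq_of_mul_eq_mul_left (orderOf_pos κ) h
  -- the uniformizer
  have := S55.normal_localField_emb0 L v
  set E := localField (emb0 v) L
  set π0 : LUnits v := Additive.ofMul (Units.mk0 ((PadicFields.uniformizer E : E) : PadicAlgCl (v : ℕ))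
    fun h => PadicFields.uniformizer_ne_zero E (Subtype.ext h))
  have hπmem : π0 ∈ locUnits L v := fun τ hτ => Additive.toMul.injective (Units.ext
    ((IntermediateField.mem_fixingSubgroup_iff _ _).1
      ((S55.locHom_mem_fixingSubgroup_iff L v τ).1 hτ) _ (PadicFields.uniformizer E).2))
  have hLfix : ∀ a : locUnits L v, locRes q D L v a ∈ CyclicH2.fixed (locUnits M' v) κ := fun a => by
    show κ • locRes q D L v a = locRes q D L v a
    rw [smul_locRes q D L v κ 1 hκ, one_smul]
  have ha₁ : orderOf κ ∣ addOrderOf (ψ ⟨_, hLfix ⟨π0, hπmem⟩⟩) := by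
    rw [hψval _ (PadicFields.resDeg E) (by
      show ‖((PadicFields.uniformizer E : E) : PadicAlgCl (v : ℕ))‖ ^ orbitCard (emb0 v) k = _
      rw [horb, card_decGroup, ← PadicFields.ramIdx_mul_resDeg, pow_mul, ← PadicFields.norm_def,
        ← PadicFields.norm_q_eq, PadicFields.norm_q, zpow_neg, zpow_natCast, inv_pow]),
      addOrderOf_ofMul_eq_orderOf, zpow_natCast]
    obtain ⟨τ, hτ⟩ := κ.2
    have hτL : τ ∈ E.fixingSubgroup := (S55.locHom_mem_fixingSubgroup_iff L v τ).1
      ((QuotientGroup.eq_one_iff _).1 (by rw [← hκ, ← hτ]; rfl))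
    have hmem := cyclotomicClass_mem_zpowers L v q D hvq hτL
    have hord : orderOf κ = orderOf (cyclotomicClass q D (locHom v τ)) := by
      refine orderOf_eq_orderOf_iff.2 fun n => ⟨fun h => ?_, fun h => Subtype.ext
        (eq_one_of_proj_char q D L ?_ ?_)⟩
      · rw [← map_pow]
        have h' := congrArg (fun g : decGroup M' v => auxChar q D L (g : LevelGroup M')) h
        simp only [SubmonoidClass.coe_pow, Subgroup.coe_one, map_pow, map_one, ← hτ] at h'
        rw [map_pow]; exact h'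
      · rw [SubmonoidClass.coe_pow, map_pow, hκ, one_pow]
      · rw [SubmonoidClass.coe_pow, map_pow, ← hτ]; exact h
    rw [hord]
    exact orderOf_dvd_of_mem_zpowers hmem
  refine @CyclicNorms.exists_powSum_eq _ _ _ _ _ κ α hα hgen (Additive ((ZMod (q : ℕ))ˣ ⧸ D)) _ ψ (fun b hb => ?_) _ ha₁ ⟨_, hLfix y⟩ ?_
  · have : NeZero (orderOf κ) := ⟨hκfin.orderOf_pos.ne'⟩
    obtain ⟨γ, hγ⟩ := QuotientGroup.mk'_surjective M'.fixingSubgroup (κ : LevelGroup M')
    have hγk : γ ∈ k.fixingSubgroup :=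
      (mem_fixingSubgroup_decField M' W).2 (hγ ▸ Subgroup.mem_zpowers _)
    have hpow : ∀ i : ℕ, toLevel M' (γ ^ i) = ((κ ^ i : decGroup M' v) : LevelGroup M') := fun i => by
      rw [map_pow, SubmonoidClass.coe_pow]; exact congrArg (· ^ i) hγ
    have hbM : ((locCls M' v b : LevelMod M'.fixingSubgroup) : Cls).toMul ∈ classesOf Set.univ M' :=
      mem_levelMod_iff.1 (locCls M' v b).2
    have hN : relNorm k M' ((locCls M' v b : LevelMod M'.fixingSubgroup) : Cls).toMul =
        ((locCls M' v (powSum κ (orderOf κ) b) : LevelMod M'.fixingSubgroup) : Cls).toMul := by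
      rw [relNorm_eq_prod_range (N := orderOf κ) hγk (fun i hi j hj h => ?_) (fun h hh => ?_)
        fun σ hσ => mem_classesOf_univ_iff.1 hbM σ hσ, locCls_powSum]
      · rw [← hγ, show (toLevel M' γ : LevelGroup M') = (γ : Γ ⧸ M'.fixingSubgroup) from rfl]
        exact (toMul_powSum q D L γ _ _).symm
      · have e : toLevel M' (γ ^ i) = toLevel M' (γ ^ j) := QuotientGroup.eq.2 h
        rw [hpow, hpow] at e
        exact pow_injOn_Iio_orderOf hi hj (Subtype.ext e)
      · obtain ⟨l, hl⟩ := (mem_fixingSubgroup_decField M' W).1 hh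
        have hmem : (⟨_, hW ((mem_fixingSubgroup_decField M' W).1 hh)⟩ : decGroup M' v) ∈ Submonoid.powers κ :=
          hκfin.mem_powers_iff_mem_zpowers.2 ⟨l, Subtype.ext ((SubgroupClass.coe_zpow κ l).trans hl)⟩
        obtain ⟨i, hi⟩ := Submonoid.mem_powers_iff _ _ |>.1 hmem
        refine ⟨i % orderOf κ, Nat.mod_lt _ hκfin.orderOf_pos, QuotientGroup.eq.1 ?_⟩
        show toLevel M' (γ ^ (i % orderOf κ)) = toLevel M' h
        rw [hpow, pow_mod_orderOf, hi]
    have h := thetaCls_relNorm q D hD (decField_le M' W) (le_sup_right : subField q D ≤ M') hbM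
      (hN ▸ locCls_mem_classesOf M' v hW (hfix ⟨_, hb⟩))
    refine congrArg Additive.ofMul (Eq.trans ?_ h)
    exact congrArg _ (Subtype.ext hN.symm)
  · rw [hψval _ w (by rw [horb]; exact hyw), hw]
    rfl

end Fermat.Agent.ClassField.Idele
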