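import Fermat.Agent.ClassField.Idele.Fundamental.Inflated
import Fermat.Agent.ClassField.S55.Final.LocalFormation

/-!
# The symbol on the local units at the base embedding of a level

For `W ≤ decGroup M v` and `F` the fixed field of its preimage: the idele supported at the base
embedding of a `W`-invariant local unit is one of `F`, with symbol given by its absolute value;
elements of the decomposition group over `F` have classes in the powers of `ℓ ^ f`.
-/

set_option autoImplicit false
set_option linter.unusedSectionVars false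

noncomputable section

open IntermediateField
open scoped Fermat.Agent.ClassField

namespace Fermat.Agent.ClassField.Idele

open S55 (decGroup locUnits locIdele locHom LUnits toLevel LevelGroup emb0 emb0_locHom)

local notation "Qb" => AlgebraicClosure ℚ
local notation "Γ" => (AlgebraicClosure ℚ ≃ₐ[ℚ] AlgebraicClosure ℚ)

variable (M : IntermediateField ℚ Qb) [Normal ℚ M] [FiniteDimensional ℚ M] (v : Nat.Primes)

/-- The class of the idele supported at the base embedding. -/
def locCls : locUnits M v →+ LevelMod M.fixingSubgroup where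
  toFun y := ⟨Additive.ofMul (classMap Set.univ (locIdele M v y)), fun σ hσ =>
    congrArg Additive.ofMul (show σ • classMap Set.univ (locIdele M v y) = classMap Set.univ (locIdele M v y) by
      rw [smul_classMap, S55.locIdele_mem M v y σ hσ])⟩
  map_zero' := by
    refine Subtype.ext ?_
    show Additive.ofMul (classMap Set.univ (locIdele M v 0)) = 0
    have h := S55.locIdele_mul M v 0 0
    rw [add_zero] at h
    rw [left_eq_mul.mp h, map_one]
    rfl
  map_add' y z := by
    refine Subtype.ext ?_
    show Additive.ofMul (classMap Set.univ (locIdele M v (y + z))) = _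
    rw [S55.locIdele_mul, map_mul]
    rfl

lemma toMul_locCls (y : locUnits M v) :
    ((locCls M v y : LevelMod M.fixingSubgroup) : Cls).toMul = classMap Set.univ (locIdele M v y) :=
  rfl

lemma locCls_smul (g : decGroup M v) (y : locUnits M v) :
    locCls M v (g • y) = (g : LevelGroup M) • locCls M v y := by
  obtain ⟨σ, hσ⟩ := QuotientGroup.mk'_surjective M.fixingSubgroup (g : LevelGroup M)
  refine Subtype.ext ?_
  rw [← hσ]
  refine Eq.trans ?_ (Devissage.coe_mk_smul _ σ (locCls M v y)).symm
  show Additive.ofMul (classMap Set.univ (locIdele M v (g • y))) =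
    Additive.ofMul (σ • classMap Set.univ (locIdele M v y))
  rw [smul_classMap, S55.smul_locIdele M v g σ hσ]

lemma locHom_mem_decGroup (τ : LocalGal v) : toLevel M (locHom v τ) ∈ decGroup M v := ⟨τ, rfl⟩

section field

variable (W : Subgroup (LevelGroup M))

/-- The fixed field of the preimage of `W`. -/
def decField : IntermediateField ℚ Qb :=
  IntermediateField.fixedField (W.comap (toLevel M))

lemma fixingSubgroup_le_comap : M.fixingSubgroup ≤ W.comap (toLevel M) := fun σ hσ => by
  show toLevel M σ ∈ W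
  rw [show toLevel M σ = 1 from (QuotientGroup.eq_one_iff σ).2 hσ]
  exact one_mem W

instance finiteDimensional_decField : FiniteDimensional ℚ (decField M W) :=
  finiteDimensional_fixedField_of_le (fixingSubgroup_le_comap M W)

lemma decField_le : decField M W ≤ M := fixedField_le_of_le (fixingSubgroup_le_comap M W)

lemma mem_fixingSubgroup_decField {σ : Γ} :
    σ ∈ (decField M W).fixingSubgroup ↔ toLevel M σ ∈ W := by
  rw [decField, fixingSubgroup_fixedField_of_le (fixingSubgroup_le_comap M W)]
  rfl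

lemma toLevel_mem_of_eqOn {τ : LocalGal v} {σ : Γ}
    (h : ∀ x ∈ decField M W, τ (emb0 v x) = globalComp (emb0 v) σ x) :
    (toLevel M (locHom v τ))⁻¹ * toLevel M σ ∈ W := by
  rw [← map_inv, ← map_mul, ← mem_fixingSubgroup_decField]
  refine (IntermediateField.mem_fixingSubgroup_iff _ _).2 fun x hx => ?_
  show (locHom v τ).symm (σ x) = x
  rw [AlgEquiv.symm_apply_eq]
  refine (emb0 v).toRingHom.injective ?_
  show emb0 v (σ x) = emb0 v (locHom v τ x)
  rw [emb0_locHom]
  exact (h x hx).symm

variable {W}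

lemma mem_localField_decField {y : locUnits M v}
    (hy : ∀ g : decGroup M v, (g : LevelGroup M) ∈ W → g • y = y) :
    (((y : LUnits v).toMul : (PadicAlgCl (v : ℕ))ˣ) : PadicAlgCl (v : ℕ)) ∈
      localField (emb0 v) (decField M W) := by
  rw [← InfiniteGalois.fixedField_fixingSubgroup (localField (emb0 v) (decField M W))]
  rintro ⟨τ, hτ⟩
  have hW : toLevel M (locHom v τ) ∈ W := by
    rw [← mem_fixingSubgroup_decField]
    exact (IntermediateField.mem_fixingSubgroup_iff _ _).2 fun x hx =>
      (emb0 v).toRingHom.injective ((emb0_locHom v τ x).trans (localComp_eqOn_of_fix hτ x hx))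
  have h := congrArg (fun z : locUnits M v => (z : LUnits v)) (hy ⟨_, locHom_mem_decGroup M v τ⟩ hW)
  refine Eq.trans ?_ (congrArg (fun z : LUnits v => ((z.toMul : (PadicAlgCl (v : ℕ))ˣ) : PadicAlgCl (v : ℕ))) h)
  exact (congrArg (fun z : LUnits v => ((z.toMul : (PadicAlgCl (v : ℕ))ˣ) : PadicAlgCl (v : ℕ)))
    (S55.coe_smul_locUnits (τ := τ) (g := ⟨_, locHom_mem_decGroup M v τ⟩) rfl y)).symm

variable (hW : W ≤ decGroup M v)

include hW in
lemma locIdele_eq_single {y : locUnits M v}
    (hy : ∀ g : decGroup M v, (g : LevelGroup M) ∈ W → g • y = y) :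
    locIdele M v y = single (emb0 v) (decField M W) (y : LUnits v).toMul
      (mem_localField_decField M v hy) := by
  refine Subtype.ext (Raw.ext fun ℓ ι => ?_)
  rcases eq_or_ne v ℓ with rfl | hne
  · obtain ⟨σ, rfl⟩ := S55.globalComp_surjective v ι
    by_cases h : toLevel M σ ∈ decGroup M v
    · obtain ⟨τ, hτ⟩ := h
      have hM := S55.localComp_emb0.mpr hτ
      refine Units.ext ?_
      exact ((singleFun_of_eqOn (emb0 v) (S55.mem_localField_of_mem_locUnits y.2) _ τ hM).trans
        (singleFun_of_eqOn (emb0 v) (mem_localField_decField M v hy) _ τ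
          fun x hx => hM x (decField_le M W hx)).symm)
    · rw [S55.locIdele_apply_of_notMem M v y h]
      refine (singleFun_of_forall_ne (emb0 v) _ fun τ => ?_).symm
      by_contra hne
      push Not at hne
      have h1 := mul_mem (locHom_mem_decGroup M v τ) (hW (toLevel_mem_of_eqOn M v W hne))
      rw [mul_inv_cancel_left] at h1
      exact h h1
  · rw [S55.locIdele_apply_of_ne M v ι y hne, single_apply_of_ne _ _ _ _ _ hne]

include hW in
lemma orbitCard_mul_card :
    orbitCard (emb0 v) (decField M W) * Nat.card W = Nat.card (decGroup M v) := by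
  classical
  set T : Subgroup Γ := (decGroup M v).comap (toLevel M)
  set V : Subgroup Γ := W.comap (toLevel M)
  have hVT : V ≤ T := Subgroup.comap_mono hW
  have hiff : ∀ σ : Γ, (∃ τ : LocalGal v, ∀ x ∈ decField M W, τ (emb0 v x) = globalComp (emb0 v) σ x) ↔
      σ ∈ T := by
    refine fun σ => ⟨fun ⟨τ, hτ⟩ => ?_, fun ⟨τ, hτ⟩ => ⟨τ, fun x hx =>
      S55.localComp_emb0.mpr hτ x (decField_le M W hx)⟩⟩
    have h1 := mul_mem (locHom_mem_decGroup M v τ) (hW (toLevel_mem_of_eqOn M v W hτ))
    rwa [mul_inv_cancel_left] at h1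
  have hVfix : (decField M W).fixingSubgroup = V :=
    fixingSubgroup_fixedField_of_le (fixingSubgroup_le_comap M W)
  let X := (⊥ : IntermediateField ℚ Qb).fixingSubgroup ⧸
    (decField M W).fixingSubgroup.subgroupOf (⊥ : IntermediateField ℚ Qb).fixingSubgroup
  have hout : ∀ γ : (⊥ : IntermediateField ℚ Qb).fixingSubgroup,
      ((γ : Γ))⁻¹ * (((QuotientGroup.mk γ : X).out : (⊥ : IntermediateField ℚ Qb).fixingSubgroup) : Γ) ∈ V := by
    intro γ
    have h := QuotientGroup.eq.1 (QuotientGroup.out_eq' (QuotientGroup.mk γ : X))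
    rw [Subgroup.mem_subgroupOf] at h
    rw [← hVfix]
    simpa using (decField M W).fixingSubgroup.inv_mem h
  have hcard : orbitCard (emb0 v) (decField M W) = V.relIndex T := by
    refine Nat.card_congr
      { toFun := fun x => QuotientGroup.mk (⟨_, (hiff _).1 x.2⟩ : T)
        invFun := fun c => ⟨QuotientGroup.mk
          (⟨((c.out : T) : Γ), by rw [fixingSubgroup_bot_eq_top]; trivial⟩ :
            (⊥ : IntermediateField ℚ Qb).fixingSubgroup), (hiff _).2 (by
              have h := T.mul_mem (c.out : T).2 (hVT (hout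
                ⟨((c.out : T) : Γ), by rw [fixingSubgroup_bot_eq_top]; trivial⟩))
              rwa [mul_inv_cancel_left] at h)⟩
        left_inv := fun x => Subtype.ext ?_
        right_inv := fun c => ?_ }
    · conv_rhs => rw [← QuotientGroup.out_eq' x.1]
      refine QuotientGroup.eq.2 (Subgroup.mem_subgroupOf.2 ?_)
      refine (SetLike.ext_iff.1 hVfix _).2 ?_
      have h := QuotientGroup.eq.1 (QuotientGroup.out_eq'
        (QuotientGroup.mk (⟨_, (hiff _).1 x.2⟩ : T) : T ⧸ V.subgroupOf T))
      rw [Subgroup.mem_subgroupOf] at h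
      exact h
    · conv_rhs => rw [← QuotientGroup.out_eq' c]
      refine QuotientGroup.eq.2 (Subgroup.mem_subgroupOf.2 ?_)
      have h := hout ⟨((c.out : T) : Γ), by rw [fixingSubgroup_bot_eq_top]; trivial⟩
      simpa using V.inv_mem h
  have hrel : V.relIndex T = W.relIndex (decGroup M v) := by
    rw [Subgroup.relIndex_comap, Subgroup.map_comap_eq_self_of_surjective (QuotientGroup.mk'_surjective _)]
  rw [hcard, hrel, mul_comm, ← Subgroup.relIndex_bot_left W,
    Subgroup.relIndex_mul_relIndex ⊥ W (decGroup M v) bot_le hW, Subgroup.relIndex_bot_left]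

variable (q : Nat.Primes) (D : Subgroup (ZMod (q : ℕ))ˣ) (hD : (-1 : (ZMod (q : ℕ))ˣ) ∈ D)

include hW in
lemma locCls_mem_classesOf {y : locUnits M v}
    (hy : ∀ g : decGroup M v, (g : LevelGroup M) ∈ W → g • y = y) :
    ((locCls M v y : LevelMod M.fixingSubgroup) : Cls).toMul ∈
      classesOf Set.univ (decField M W) :=
  ⟨_, single_mem_idelesOf _ _ _ _, by
    show classMap Set.univ (single _ _ _ _) = classMap Set.univ (locIdele M v y)
    rw [locIdele_eq_single M v hW hy]⟩

include hW in
/-- **The symbol of a local unit.** -/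
theorem thetaCls_locCls (hv : v ≠ q) {y : locUnits M v}
    (hy : ∀ g : decGroup M v, (g : LevelGroup M) ∈ W → g • y = y) {w : ℤ}
    (hw : ‖(((y : LUnits v).toMul : (PadicAlgCl (v : ℕ))ˣ) : PadicAlgCl (v : ℕ))‖ ^
      orbitCard (emb0 v) (decField M W) = ((v : ℕ) : ℝ) ^ (-w)) :
    thetaCls q D hD (decField M W) ⟨_, locCls_mem_classesOf M v hW hy⟩ = primeClass q D v ^ w := by
  have h1 := thetaAt_single q D (emb0 v) (decField M W) hv (mem_localField_decField M v hy) hw
  rw [← h1, ← thetaCls_classMap q D hD]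
  refine congrArg _ (Subtype.ext ?_)
  show classMap Set.univ (locIdele M v y) =
    classMap Set.univ (single (emb0 v) (decField M W) _ (mem_localField_decField M v hy))
  rw [locIdele_eq_single M v hW hy]

end field

/-- The decomposition group has the order of the local degree. -/
lemma card_decGroup :
    Nat.card (decGroup M v) = Module.finrank ℚ_[(v : ℕ)] (localField (emb0 v) M) := by
  have := S55.normal_localField_emb0 M v
  have : IsGalois ℚ_[(v : ℕ)] (localField (emb0 v) M) := ⟨⟩
  let φ : LocalGal v →* Gal((localField (emb0 v) M)/ℚ_[(v : ℕ)]) :=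
    AlgEquiv.restrictNormalHom (localField (emb0 v) M)
  have hφ : Function.Surjective φ :=
    AlgEquiv.restrictNormalHom_surjective (F := ℚ_[(v : ℕ)]) (K₁ := localField (emb0 v) M)
      (PadicAlgCl (v : ℕ))
  have hker : ((toLevel M).comp (locHom v)).ker = φ.ker := by
    ext τ
    rw [MonoidHom.mem_ker, IntermediateField.restrictNormalHom_ker,
      ← S55.locHom_mem_fixingSubgroup_iff M v τ]
    exact QuotientGroup.eq_one_iff _
  rw [decGroup, ← Subgroup.index_ker, hker, Subgroup.index_ker, MonoidHom.range_eq_top.2 hφ,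
    Subgroup.card_top, IsGalois.card_aut_eq_finrank]

variable (q : Nat.Primes) (D : Subgroup (ZMod (q : ℕ))ˣ)

/-- Over a local field of residue degree `f` the classes are powers of `ℓ ^ f`. -/
theorem cyclotomicClass_mem_zpowers (hv : v ≠ q) {τ : LocalGal v}
    (hτ : τ ∈ (localField (emb0 v) M).fixingSubgroup) :
    cyclotomicClass q D (locHom v τ) ∈
      Subgroup.zpowers (primeClass q D v ^ PadicFields.resDeg (localField (emb0 v) M)) := by
  classical
  have hcop : (v : ℕ).Coprime (q : ℕ) :=
    (Nat.coprime_primes v.2 q.2).mpr fun h => hv (Subtype.ext h)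
  set u := ZMod.unitOfCoprime (v : ℕ) hcop with hu
  set F := localField (emb0 v) M
  set n := PadicFields.resDeg F * orderOf u
  have hn : 0 < n := Nat.mul_pos (PadicFields.resDeg_pos F) (orderOf_pos u)
  have hN : 1 < (v : ℕ) ^ n := Nat.one_lt_pow hn.ne' v.2.one_lt
  have : NeZero ((v : ℕ) ^ n - 1) := ⟨by omega⟩
  have : NeZero (((v : ℕ) ^ n - 1 : ℕ) : PadicAlgCl (v : ℕ)) := ⟨Nat.cast_ne_zero.mpr (by omega)⟩
  obtain ⟨z, hz⟩ := HasEnoughRootsOfUnity.exists_primitiveRoot (PadicAlgCl (v : ℕ)) ((v : ℕ) ^ n - 1)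
  let Z : IntermediateField ℚ_[(v : ℕ)] (PadicAlgCl (v : ℕ)) := IntermediateField.adjoin _ {z}
  have : FiniteDimensional ℚ_[(v : ℕ)] Z :=
    IntermediateField.adjoin.finiteDimensional (Algebra.IsAlgebraic.isAlgebraic z).isIntegral
  have : Normal ℚ_[(v : ℕ)] Z := IntermediateField.normal_iff_forall_map_le'.2 fun σ => by
    rw [IntermediateField.adjoin_map, IntermediateField.adjoin_le_iff, Set.image_singleton,
      Set.singleton_subset_iff]
    obtain ⟨i, -, hi⟩ := hz.eq_pow_of_pow_eq_one
      (show (σ z) ^ ((v : ℕ) ^ n - 1) = 1 by rw [← map_pow, hz.pow_eq_one, map_one])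
    change σ z ∈ Z
    rw [← hi]
    exact pow_mem (IntermediateField.mem_adjoin_simple_self _ z) i
  have := S55.normal_localField_emb0 M v
  set E := F ⊔ Z with hE
  have : FiniteDimensional ℚ_[(v : ℕ)] E := IntermediateField.finiteDimensional_sup F Z
  have : Normal ℚ_[(v : ℕ)] E := by rw [hE]; infer_instance
  have hzE : z ∈ E := (le_sup_right : Z ≤ E) (IntermediateField.mem_adjoin_simple_self _ z)
  obtain ⟨i, -, hi⟩ := PadicFields.exists_eq_pow_of_fixing E (le_sup_left : F ≤ E) hn hz hzE
    (dvd_mul_right _ _) (AlgEquiv.restrictNormal τ E) fun x hx => Subtype.ext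
      ((AlgEquiv.restrictNormal_commutes τ E x).trans
        ((IntermediateField.mem_fixingSubgroup_iff _ _).1 hτ _ hx))
  have hzτ : τ z = z ^ (v : ℕ) ^ (PadicFields.resDeg F * i) :=
    ((AlgEquiv.restrictNormal_commutes τ E ⟨z, hzE⟩).symm.trans hi)
  obtain ⟨k, -, hk⟩ := hz.eq_pow_of_pow_eq_one
    (show emb0 v (zetaQ q) ^ ((v : ℕ) ^ n - 1) = 1 by
      have hdvd : (q : ℕ) ∣ (v : ℕ) ^ n - 1 := by
        rw [← ZMod.natCast_eq_zero_iff, Nat.cast_sub hN.le, Nat.cast_one, Nat.cast_pow,
          show ((v : ℕ) : ZMod (q : ℕ)) = (u : ZMod (q : ℕ)) by rw [hu, ZMod.coe_unitOfCoprime],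
          ← Units.val_pow_eq_pow_val, pow_mul', pow_orderOf_eq_one, one_pow, Units.val_one, sub_self]
      obtain ⟨c, hc⟩ := hdvd
      rw [hc, pow_mul, (isPrimitiveRoot_image q (emb0 v)).pow_eq_one, one_pow])
  have hact : emb0 v (locHom v τ (zetaQ q)) = emb0 v (zetaQ q) ^ (v : ℕ) ^ (PadicFields.resDeg F * i) := by
    rw [emb0_locHom, ← hk, map_pow, hzτ, ← pow_mul, ← pow_mul, mul_comm]
  rw [apply_zetaQ, map_pow] at hact
  refine ⟨(i : ℤ), ?_⟩
  dsimp only
  rw [zpow_natCast, ← pow_mul, primeClass, dif_pos hcop, ← QuotientGroup.mk_pow]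
  refine congrArg (QuotientGroup.mk' D) (Units.ext ?_)
  have h := (IsPrimitiveRoot.isUnit (isPrimitiveRoot_image q (emb0 v)) q.2.ne_zero).unit
  have hfin : IsOfFinOrder (emb0 v (zetaQ q)) :=
    isOfFinOrder_iff_pow_eq_one.2 ⟨_, q.2.pos, (isPrimitiveRoot_image q (emb0 v)).pow_eq_one⟩
  have h2 := hfin.pow_eq_pow_iff_modEq.1 hact
  rw [← (isPrimitiveRoot_image q (emb0 v)).eq_orderOf, ← ZMod.natCast_eq_natCast_iff] at h2
  have : NeZero (q : ℕ) := ⟨q.2.ne_zero⟩
  rw [ZMod.natCast_zmod_val, Nat.cast_pow] at h2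
  rw [h2, Units.val_pow_eq_pow_val, ZMod.coe_unitOfCoprime]

end Fermat.Agent.ClassField.Idele
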