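import Fermat.Agent.ClassField.Idele.Fundamental.LocalSymbol
import Fermat.Agent.ClassField.CyclicNorms

/-!
# Local units and their classes in the composite with an auxiliary field

The idele supported at the base embedding of `L` is the product of the translates, by
`Gal(LF/L)` modulo its decomposition group, of the one of `LF`.
-/

set_option autoImplicit false
set_option linter.unusedSectionVars false

noncomputable section

open IntermediateField
open scoped Fermat.Agent.ClassField

namespace Fermat.Agent.ClassField.Idele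

open S55 (decGroup locUnits locIdele locHom LUnits toLevel LevelGroup emb0 emb0_locHom)
open Devissage (powSum powSum_apply)

local notation "Qb" => AlgebraicClosure ℚ
local notation "Γ" => (AlgebraicClosure ℚ ≃ₐ[ℚ] AlgebraicClosure ℚ)

variable (q : Nat.Primes) (D : Subgroup (ZMod (q : ℕ))ˣ)
variable (L : IntermediateField ℚ Qb) [FiniteDimensional ℚ L] [Normal ℚ L] (v : Nat.Primes)

lemma auxProj_toLevel (σ : Γ) :
    auxProj q D L (toLevel (auxLevel q D L) σ) = toLevel L σ := rfl

lemma auxProj_mem_decGroup {g : LevelGroup (auxLevel q D L)} (hg : g ∈ decGroup (auxLevel q D L) v) :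
    auxProj q D L g ∈ decGroup L v := by
  obtain ⟨τ, rfl⟩ := hg
  exact ⟨τ, rfl⟩

/-- The inclusion of the local units. -/
def locRes : locUnits L v →+ locUnits (auxLevel q D L) v :=
  AddSubgroup.inclusion fun _ hy τ hτ => hy τ (fixingSubgroup_auxLevel_le q D L hτ)

lemma smul_locRes (g : decGroup (auxLevel q D L) v) (g' : decGroup L v)
    (h : auxProj q D L (g : LevelGroup (auxLevel q D L)) = (g' : LevelGroup L)) (a : locUnits L v) :
    g • locRes q D L v a = locRes q D L v (g' • a) := by
  obtain ⟨τ, hτ⟩ := g.2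
  have hτ' : toLevel L (locHom v τ) = (g' : LevelGroup L) := by rw [← h, ← hτ]; rfl
  refine Subtype.ext ?_
  rw [S55.coe_smul_locUnits hτ]
  exact (S55.coe_smul_locUnits hτ' a).symm

/-- Local units fixed by the kernel come from `L`. -/
lemma exists_locRes_eq {a : locUnits (auxLevel q D L) v}
    (ha : ∀ g : decGroup (auxLevel q D L) v,
      auxProj q D L (g : LevelGroup (auxLevel q D L)) = 1 → g • a = a) :
    ∃ a' : locUnits L v, locRes q D L v a' = a := by
  refine ⟨⟨(a : LUnits v), fun τ hτ => ?_⟩, rfl⟩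
  exact (S55.coe_smul_locUnits (τ := τ) (g := ⟨_, locHom_mem_decGroup (auxLevel q D L) v τ⟩) rfl a).symm.trans
    (congrArg Subtype.val (ha ⟨_, locHom_mem_decGroup (auxLevel q D L) v τ⟩
      ((QuotientGroup.eq_one_iff _).2 hτ)))

lemma locCls_smul_of_mem {g : LevelGroup (auxLevel q D L)} (hg : g ∈ decGroup (auxLevel q D L) v)
    (a : locUnits (auxLevel q D L) v) :
    g • locCls (auxLevel q D L) v a =
      locCls (auxLevel q D L) v ((⟨g, hg⟩ : decGroup (auxLevel q D L) v) • a) :=
  (locCls_smul (auxLevel q D L) v ⟨g, hg⟩ a).symm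

lemma toMul_powSum (γ : Γ) (m : ℕ) (b : LevelMod (auxLevel q D L).fixingSubgroup) :
    ((powSum (γ : Γ ⧸ (auxLevel q D L).fixingSubgroup) m b :
      LevelMod (auxLevel q D L).fixingSubgroup) : Cls).toMul =
      ∏ i ∈ Finset.range m, γ ^ i • (b : Cls).toMul := by
  rw [powSum_apply, AddSubgroup.val_finsetSum, toMul_sum]
  refine Finset.prod_congr rfl fun i _ => ?_
  rw [← QuotientGroup.mk_pow]
  exact congrArg Additive.toMul (Devissage.coe_mk_smul _ _ b)

variable {γ : Γ} (hγ : γ ∈ L.fixingSubgroup)
  (hgen : ∀ x : LevelGroup (auxLevel q D L), auxProj q D L x = 1 →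
    ∃ i : ℕ, x = toLevel (auxLevel q D L) (γ ^ i))
  {m : ℕ} (hm0 : 0 < m)
  (hm : ∀ i : ℕ, toLevel (auxLevel q D L) (γ ^ i) ∈ decGroup (auxLevel q D L) v ↔ m ∣ i)

include hγ hgen hm0 hm in
lemma locIdele_eq_prod (a : locUnits L v) :
    locIdele L v a =
      ∏ j ∈ Finset.range m, γ ^ j • locIdele (auxLevel q D L) v (locRes q D L v a) := by
  classical
  refine Subtype.ext (Raw.ext fun ℓ ι => Units.ext ?_)
  rw [coe_prod_smul_apply]
  rcases eq_or_ne v ℓ with rfl | hne
  · obtain ⟨σ, rfl⟩ := S55.globalComp_surjective v ι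
    simp only [← globalComp_mul]
    have hπ : ∀ j : ℕ, toLevel L (σ * γ ^ j) = toLevel L σ := fun j => by
      rw [map_mul, show toLevel L (γ ^ j) = 1 from (QuotientGroup.eq_one_iff _).2 (pow_mem hγ j),
        mul_one]
    by_cases h : toLevel L σ ∈ decGroup L v
    · obtain ⟨τ, hτ⟩ := h
      set M' := auxLevel q D L
      obtain ⟨i, hi⟩ := hgen ((toLevel M' (locHom v τ))⁻¹ * toLevel M' σ) (by
        rw [map_mul, map_inv, auxProj_toLevel, auxProj_toLevel]
        exact inv_mul_eq_one.2 hτ)
      have hiff : ∀ j : ℕ, toLevel M' (σ * γ ^ j) ∈ decGroup M' v ↔ m ∣ i + j := fun j => by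
        rw [← hm, pow_add, map_mul, map_mul, ← hi, mul_assoc,
          Subgroup.mul_mem_cancel_left _ (inv_mem (locHom_mem_decGroup M' v τ))]
      obtain ⟨j₀, hj₀, hdvd, huniq⟩ : ∃ j₀, j₀ < m ∧ m ∣ i + j₀ ∧
          ∀ j < m, m ∣ i + j → j = j₀ := by
        refine ⟨(m - i % m) % m, Nat.mod_lt _ hm0, ?_, fun j hj hd => ?_⟩
        · rw [Nat.dvd_iff_mod_eq_zero, Nat.add_mod, Nat.mod_mod, ← Nat.add_mod]
          have h1 := Nat.mod_lt i hm0
          rcases Nat.eq_zero_or_pos (i % m) with h0 | h0
          · rw [Nat.add_mod, h0, Nat.sub_zero, Nat.mod_self, Nat.zero_mod]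
          · rw [Nat.add_mod, Nat.mod_eq_of_lt (Nat.sub_lt hm0 h0), Nat.add_sub_cancel' h1.le,
              Nat.mod_self]
        · have h1 := Nat.mod_lt i hm0
          rw [Nat.dvd_iff_mod_eq_zero, Nat.add_mod, Nat.mod_eq_of_lt hj] at hd
          rcases lt_or_ge (i % m + j) m with h2 | h2
          · rw [Nat.mod_eq_of_lt h2] at hd
            rw [show i % m = 0 by omega, Nat.sub_zero, Nat.mod_self]
            omega
          · rw [Nat.mod_eq_sub_mod h2, Nat.mod_eq_of_lt (by omega)] at hd
            rw [Nat.mod_eq_of_lt (by omega)]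
            omega
      rw [Finset.prod_eq_single j₀ (fun j hj hne => ?_)
        (fun hj => absurd (Finset.mem_range.2 hj₀) hj)]
      · obtain ⟨τ', hτ'⟩ := (hiff j₀).2 hdvd
        have hτL : toLevel L (locHom v τ') = toLevel L σ := by
          rw [← auxProj_toLevel q D, show toLevel M' (locHom v τ') = _ from hτ', auxProj_toLevel, hπ]
        refine congrArg Units.val (Additive.ofMul.injective ?_)
        rw [S55.locIdele_apply_of_eq L v a hτL, S55.locIdele_apply_of_eq M' v _ hτ']
        rfl
      · rw [S55.locIdele_apply_of_notMem M' v _ fun hj' =>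
          hne (huniq j (Finset.mem_range.1 hj) ((hiff j).1 hj')), Units.val_one]
    · rw [S55.locIdele_apply_of_notMem L v a h, Units.val_one, Finset.prod_eq_one]
      intro j _
      refine (congrArg Units.val (S55.locIdele_apply_of_notMem (auxLevel q D L) v (σ := σ * γ ^ j) _
        fun hj' => h ?_)).trans Units.val_one
      rw [← hπ j]
      exact auxProj_mem_decGroup q D L v hj'
  · rw [S55.locIdele_apply_of_ne L v ι a hne, Units.val_one, Finset.prod_eq_one]
    intro j _
    rw [S55.locIdele_apply_of_ne (auxLevel q D L) v _ _ hne, Units.val_one]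

include hγ hgen hm0 hm in
theorem auxIncl_locCls (a : locUnits L v) :
    auxIncl q D L (locCls L v a) =
      powSum (γ : Γ ⧸ (auxLevel q D L).fixingSubgroup) m
        (locCls (auxLevel q D L) v (locRes q D L v a)) := by
  refine Subtype.ext (Additive.toMul.injective ?_)
  rw [toMul_powSum, toMul_locCls]
  show classMap Set.univ (locIdele L v a) = _
  rw [locIdele_eq_prod q D L v hγ hgen hm0 hm a, map_prod]
  exact Finset.prod_congr rfl fun j _ => (smul_classMap _ _ _).symm

end Fermat.Agent.ClassField.Idele
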